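import Fermat.Agent.CuspIntStr.FixedField

/-!
# Descent to `ℚ`

A finite dimensional space of complex sequences stable under all automorphisms of `ℂ` is spanned
by its rational members.
-/

set_option autoImplicit false

noncomputable section

namespace Fermat.Agent.CuspIntStr

open Module

/-- The vectors with rational coordinates span, if the image is stable under `Aut ℂ`. -/
theorem span_rational_eq_top {V : Type*} [AddCommGroup V] [Module ℂ V] [FiniteDimensional ℂ V]
    (E : V →ₗ[ℂ] ℕ → ℂ) (hE : Function.Injective E)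
    (hstab : ∀ (σ : ℂ ≃+* ℂ) (v : V), ∃ w : V, ∀ n, E w n = σ (E v n)) :
    Submodule.span ℂ {v : V | ∀ n, ∃ r : ℚ, E v n = (r : ℂ)} = ⊤ := by
  classical
  set φ : ℕ → Dual ℂ V := fun n ↦ (LinearMap.proj n).comp E
  obtain ⟨κ, a, -, hspan, hli⟩ := exists_linearIndependent' ℂ φ
  have : Finite κ := hli.finite
  let := Fintype.ofFinite κ
  set Φ : V →ₗ[ℂ] κ → ℂ := LinearMap.pi fun i ↦ φ (a i) with hΦ
  have hΦinj : Function.Injective Φ := by
    rw [injective_iff_map_eq_zero]
    intro v hv
    apply hE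
    rw [map_zero]
    funext n
    have hn : φ n ∈ Submodule.span ℂ (Set.range (φ ∘ a)) :=
      hspan ▸ Submodule.subset_span ⟨n, rfl⟩
    have hker : Submodule.span ℂ (Set.range (φ ∘ a)) ≤ LinearMap.ker (Dual.eval ℂ V v) := by
      rw [Submodule.span_le]
      rintro _ ⟨i, rfl⟩
      exact congrFun hv i
    exact hker hn
  have hcard : finrank ℂ V = finrank ℂ (κ → ℂ) := by
    refine le_antisymm (LinearMap.finrank_le_finrank_of_injective hΦinj) ?_
    rw [finrank_fintype_fun_eq_card, ← Subspace.dual_finrank_eq (K := ℂ) (V := V)]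
    exact hli.fintype_card_le_finrank
  set e := LinearMap.linearEquivOfInjective Φ hΦinj hcard
  have hbasis : Submodule.span ℂ (Set.range fun i : κ ↦ e.symm (Pi.single i 1)) = ⊤ := by
    have hr : (fun i : κ ↦ e.symm (Pi.single i 1)) = ⇑((Pi.basisFun ℂ κ).map e.symm) := by
      funext i; simp
    rw [hr]
    exact ((Pi.basisFun ℂ κ).map e.symm).span_eq
  refine top_unique (hbasis.ge.trans (Submodule.span_le.mpr ?_))
  rintro _ ⟨i, rfl⟩
  refine Submodule.subset_span fun n ↦ ?_
  refine mem_range_rat_of_forall_fixed _ fun σ ↦ ?_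
  obtain ⟨w, hw⟩ := hstab σ (e.symm (Pi.single i 1))
  suffices w = e.symm (Pi.single i 1) by rw [← hw n, this]
  apply hΦinj
  funext j
  have h1 : Φ (e.symm (Pi.single i 1)) = Pi.single i 1 := by
    rw [← LinearMap.linearEquivOfInjective_apply (f := Φ) hΦinj hcard]
    exact e.apply_symm_apply _
  have h2 : E (e.symm (Pi.single i 1)) (a j) = (Pi.single i 1 : κ → ℂ) j := congrFun h1 j
  change E w (a j) = E (e.symm (Pi.single i 1)) (a j)
  rw [hw, h2]
  by_cases hij : j = i
  · subst hij; simp
  · simp [hij]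

end Fermat.Agent.CuspIntStr
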