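import Fermat.Agent.CuspIntStr.Conjugate
import Fermat.Agent.CuspIntStr.Descent
import Fermat.Prelude.Def_CuspForm_IntegralStructure
import Fermat.Prelude.Thm_ModularForm_sturm_bound_Gamma0

/-!
# Integral structure on `S_k(Γ₀(N))`

The cusp forms with `q`-expansion in `ℤ⟦q⟧` span `S_k(Γ₀(N))`.  By the Sturm bound a form is
determined by finitely many coefficients; the space is stable under conjugation of coefficients,
hence spanned by forms with rational coefficients, and these have bounded denominators.
-/

set_option autoImplicit false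

noncomputable section

namespace Fermat.Agent.CuspIntStr

open UpperHalfPlane ModularForm ModularFormClass
open scoped MatrixGroups ModularForm

variable (N : ℕ) [NeZero N] (k : ℤ)

/-- All `q`-coefficients, linearly. -/
def coeffMap : CuspForm (CongruenceSubgroup.Gamma0 N) k →ₗ[ℂ] ℕ → ℂ where
  toFun f n := qCoeff f n
  map_add' f g := by
    funext n
    simp only [qCoeff, Pi.add_apply, FunLike.coe_add]
    rw [ModularForm.qExpansion_add one_pos
      (CongruenceSubgroup.one_mem_strictPeriods_Gamma0 N) f g, map_add]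
  map_smul' c f := by
    funext n
    simp only [qCoeff, Pi.smul_apply, RingHom.id_apply, FunLike.coe_smul]
    rw [ModularForm.qExpansion_smul one_pos (CongruenceSubgroup.one_mem_strictPeriods_Gamma0 N) c f,
      PowerSeries.coeff_smul]

omit [NeZero N] in
/-- `coeffMap` lists the coefficients of the `q`-expansion. -/
lemma coeffMap_apply (f : CuspForm (CongruenceSubgroup.Gamma0 N) k) (n : ℕ) :
    coeffMap N k f n = (qExpansion 1 f).coeff n := rfl

/-- The Sturm bound. -/
lemma coeffMap_eq_zero {f : CuspForm (CongruenceSubgroup.Gamma0 N) k}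
    (hf : ∀ n ≤ (k * (CongruenceSubgroup.Gamma0 N).index).toNat / 12, coeffMap N k f n = 0) :
    f = 0 := by
  have h : (ModularFormClass.modularForm f :
      ModularForm (CongruenceSubgroup.Gamma0 N) k) = 0 :=
    ModularForm.sturm_bound_Gamma0 N _ fun n hn ↦ hf n hn
  exact DFunLike.ext _ _ fun z ↦ DFunLike.congr_fun h z

/-- A cusp form is determined by the coefficients of its `q`-expansion. -/
lemma coeffMap_injective : Function.Injective (coeffMap N k) := by
  rw [injective_iff_map_eq_zero]
  exact fun f hf ↦ coeffMap_eq_zero N k fun n _ ↦ congrFun hf n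

/-- `S_k(Γ₀(N))` is finite dimensional, by the Sturm bound. -/
theorem finiteDimensional_cuspForm :
    FiniteDimensional ℂ (CuspForm (CongruenceSubgroup.Gamma0 N) k) := by
  set B := (k * (CongruenceSubgroup.Gamma0 N).index).toNat / 12
  refine FiniteDimensional.of_injective
    ((LinearMap.funLeft ℂ ℂ (fun i : Fin (B + 1) ↦ (i : ℕ))).comp (coeffMap N k)) ?_
  rw [injective_iff_map_eq_zero]
  exact fun f hf ↦ coeffMap_eq_zero N k fun n hn ↦ congrFun hf ⟨n, Nat.lt_succ_of_le hn⟩

/-- A form with rational `q`-expansion has bounded denominators. -/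
theorem exists_nat_smul_mem_intLattice {f : CuspForm (CongruenceSubgroup.Gamma0 N) k}
    (hf : ∀ n, ∃ r : ℚ, coeffMap N k f n = (r : ℂ)) :
    ∃ D : ℕ, D ≠ 0 ∧ (D : ℂ) • f ∈ CuspForm.intLattice N k := by
  have hG : qHom (gN N) ∈ intAlg := by
    obtain ⟨r, hr⟩ := qExpansion_deltaN_eq N
    change qExpansion 1 (deltaN N) ∈ intAlg
    rw [hr]
    exact Subalgebra.smul_mem _ (intMap_mem_intAlg r) _
  have hp : ∀ j, qHom (pOne N j) ∈ intAlg := fun j ↦ qExpansion_levelOne_mem_intAlg _
  have hT : ∀ i, qHom (tOne f i) ∈ intAlg := fun i ↦ qExpansion_levelOne_mem_intAlg _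
  have hh : qHom (genH (N := N) (pOne N)) ∈ intAlg := by
    simp only [genH, map_sum, map_mul, map_pow, map_natCast, map_neg, map_one]
    exact sum_mem fun j _ ↦ mul_mem (mul_mem (mul_mem (pow_mem (neg_mem (one_mem _)) _) (hp j))
      (natCast_mem _ _)) (pow_mem hG _)
  have hr : qHom (genQ (N := N) (pOne N) (tOne f)) ∈ intAlg := by
    simp only [genQ, map_sum, map_mul, map_pow, map_neg, map_one]
    exact sum_mem fun j _ ↦ mul_mem (mul_mem (pow_mem (neg_mem (one_mem _)) _) (hp j))
      (sum_mem fun i _ ↦ mul_mem (hT i) (pow_mem hG _))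
  have hh0 : qHom (genH (N := N) (pOne N)) ≠ 0 := fun h ↦
    genH_pOne_ne_zero (N := N) (congrArg Subtype.val (qHom_injective (h.trans (map_zero _).symm)))
  have hxh : qExpansion 1 f * qHom (genH (N := N) (pOne N)) =
      qHom (genQ (N := N) (pOne N) (tOne f)) := by
    rw [← cuspNice_mul_genH, map_mul]; rfl
  have hrel := congrArg qHom (monic_equation f)
  simp only [map_add, map_pow, map_sum, map_mul, map_zero] at hrel
  obtain ⟨D, hD, hDz⟩ := exists_scale_of_monic_relation (x := qExpansion 1 f) hf hh hh0 hr hxh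
    (fun j ↦ qExpansion 1 (charCoeff f j)) (fun j ↦ qExpansion_levelOne_mem_intAlg _) hrel
  refine ⟨D, hD, Submodule.subset_span fun n ↦ ?_⟩
  obtain ⟨z, hz⟩ := hDz n
  refine ⟨z, ?_⟩
  change coeffMap N k ((D : ℂ) • f) n = _
  rw [map_smul, Pi.smul_apply, smul_eq_mul, coeffMap_apply, hz]

/-- `S_k(Γ₀(N))` is spanned by forms with integral `q`-expansion. -/
theorem hasIntegralStructure : CuspForm.HasIntegralStructure N k := by
  have := finiteDimensional_cuspForm N k
  have hspan := span_rational_eq_top (coeffMap N k) (coeffMap_injective N k) fun σ f ↦ by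
    obtain ⟨g, hg⟩ := exists_conj_cuspForm f σ
    refine ⟨g, fun n ↦ ?_⟩
    simp only [coeffMap_apply, hg, conjSeries, PowerSeries.coeff_map]
    rfl
  rw [CuspForm.HasIntegralStructure, eq_top_iff, ← hspan, Submodule.span_le]
  intro f hf
  obtain ⟨D, hD, hDf⟩ := exists_nat_smul_mem_intLattice N k hf
  have hD' : (D : ℂ) ≠ 0 := Nat.cast_ne_zero.mpr hD
  rw [← inv_smul_smul₀ hD' f]
  exact Submodule.smul_mem _ _ (Submodule.subset_span hDf)

end Fermat.Agent.CuspIntStr
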