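import Mathlib.Analysis.Complex.RemovableSingularity
import Mathlib.Analysis.Complex.UpperHalfPlane.Manifold

/-!
# Roots of monic polynomials and division of holomorphic functions

A root of a monic polynomial is bounded by the coefficients; a quotient of holomorphic functions
on the upper half plane which is locally bounded extends holomorphically.
-/

set_option autoImplicit false

noncomputable section

namespace Fermat.Agent.CuspIntStr

open UpperHalfPlane Filter
open scoped Topology Manifold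

/-- A root of a monic polynomial is bounded by one plus the sum of the coefficients. -/
lemma norm_le_of_monic_root {n : ℕ} (a : ℕ → ℂ) {x : ℂ}
    (h : x ^ n + ∑ j ∈ Finset.range n, a j * x ^ j = 0) :
    ‖x‖ ≤ 1 + ∑ j ∈ Finset.range n, ‖a j‖ := by
  set S := ∑ j ∈ Finset.range n, ‖a j‖ with hS
  have hS0 : 0 ≤ S := Finset.sum_nonneg fun j _ ↦ norm_nonneg _
  by_contra hlt
  push Not at hlt
  cases n with
  | zero => simp at h
  | succ m =>
    have hx1 : 1 ≤ ‖x‖ := by linarith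
    have h1 : ‖x‖ ^ (m + 1) ≤ S * ‖x‖ ^ m := by
      rw [← norm_pow, eq_neg_of_add_eq_zero_left h, norm_neg, hS, Finset.sum_mul]
      refine (norm_sum_le _ _).trans (Finset.sum_le_sum fun j hj ↦ ?_)
      rw [norm_mul, norm_pow]
      have := Finset.mem_range.mp hj
      gcongr
      omega
    rw [pow_succ'] at h1
    have := le_of_mul_le_mul_right h1 (by positivity)
    linarith

/-- A root of a monic polynomial with small coefficients is small. -/
lemma norm_lt_of_monic_root {n : ℕ} (a : ℕ → ℂ) {x : ℂ} {δ : ℝ} (hδ : 0 < δ) (hδ1 : δ ≤ 1)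
    (h : x ^ n + ∑ j ∈ Finset.range n, a j * x ^ j = 0)
    (ha : ∑ j ∈ Finset.range n, ‖a j‖ < δ ^ n) : ‖x‖ < δ := by
  by_contra hlt
  push Not at hlt
  have h1 : δ ^ n * ‖x‖ ^ n ≤ (∑ j ∈ Finset.range n, ‖a j‖) * ‖x‖ ^ n := by
    calc δ ^ n * ‖x‖ ^ n = δ ^ n * ‖∑ j ∈ Finset.range n, a j * x ^ j‖ := by
          rw [← norm_pow, eq_neg_of_add_eq_zero_left h, norm_neg]
      _ ≤ δ ^ n * ∑ j ∈ Finset.range n, ‖a j‖ * ‖x‖ ^ j := by
          gcongr
          refine (norm_sum_le _ _).trans (le_of_eq ?_)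
          simp
      _ ≤ (∑ j ∈ Finset.range n, ‖a j‖) * ‖x‖ ^ n := by
          rw [Finset.mul_sum, Finset.sum_mul]
          refine Finset.sum_le_sum fun j hj ↦ ?_
          obtain ⟨i, rfl⟩ : ∃ i, n = j + i := ⟨n - j, by have := Finset.mem_range.mp hj; omega⟩
          have h2 : δ ^ (j + i) ≤ ‖x‖ ^ i := by
            calc δ ^ (j + i) ≤ δ ^ i := pow_le_pow_of_le_one hδ.le hδ1 (by omega)
              _ ≤ ‖x‖ ^ i := by gcongr
          calc δ ^ (j + i) * (‖a j‖ * ‖x‖ ^ j) ≤ ‖x‖ ^ i * (‖a j‖ * ‖x‖ ^ j) := by gcongr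
            _ = ‖a j‖ * ‖x‖ ^ (j + i) := by ring
  exact absurd (le_of_mul_le_mul_right h1 (pow_pos (hδ.trans_le hlt) n)) (not_le.mpr ha)

/-- Division with removable singularities. -/
lemma exists_div {F H : ℍ → ℂ} (hF : MDiff F) (hH : MDiff H) (hH0 : H ≠ 0) {B : ℍ → ℝ}
    (hB : Continuous B) (hb : ∀ z, ‖F z‖ ≤ B z * ‖H z‖) :
    ∃ g : ℍ → ℂ, MDiff g ∧ g * H = F := by
  set U : Set ℂ := {z | 0 < z.im}
  have hU : IsOpen U := isOpen_upperHalfPlaneSet
  set Fc := F ∘ ofComplex
  set Hc := H ∘ ofComplex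
  have hFc : DifferentiableOn ℂ Fc U := mdifferentiable_iff.mp hF
  have hHc : DifferentiableOn ℂ Hc U := mdifferentiable_iff.mp hH
  set r : ℂ → ℂ := fun w ↦ Fc w / Hc w
  set g₀ : ℂ → ℂ := fun w ↦ limUnder (𝓝[≠] w) r
  have hne : ∀ c ∈ U, ∀ᶠ w in 𝓝[≠] c, Hc w ≠ 0 := by
    intro c hc
    rcases (hHc.analyticAt (hU.mem_nhds hc)).eventually_eq_zero_or_eventually_ne_zero with h | h
    swap
    · exact h
    exfalso
    refine hH0 (funext fun z ↦ ?_)
    have := (hHc.analyticOnNhd hU).eqOn_zero_of_preconnected_of_eventuallyEq_zero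
      ((Complex.isConnected_of_upperHalfPlane subset_rfl (fun z (hz : 0 < z.im) ↦ show 0 ≤ z.im from hz.le)).isPreconnected)
      hc h z.im_pos
    simpa [Hc] using this
  have hval : ∀ w ∈ U, Hc w ≠ 0 → g₀ w = r w := by
    intro w hw hn
    refine (Tendsto.limUnder_eq ?_)
    exact ((hFc.differentiableAt (hU.mem_nhds hw)).div
      (hHc.differentiableAt (hU.mem_nhds hw)) hn).continuousAt.tendsto.mono_left nhdsWithin_le_nhds
  have hdiff : DifferentiableOn ℂ g₀ U := by
    intro c hc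
    have hBc : ∀ᶠ w in 𝓝 c, B (ofComplex w) < B (ofComplex c) + 1 :=
      (hB.continuousAt.comp (mdifferentiableAt_ofComplex hc).continuousAt).eventually_lt
        continuousAt_const (by simp)
    obtain ⟨s, hs, hso, hcs⟩ := eventually_nhds_iff.mp
      ((hU.eventually_mem hc).and (hBc.and (eventually_nhdsWithin_iff.mp (hne c hc))))
    have hd : DifferentiableOn ℂ r (s \ {c}) := fun w hw ↦
      (((hFc.differentiableAt (hU.mem_nhds (hs w hw.1).1)).div
        (hHc.differentiableAt (hU.mem_nhds (hs w hw.1).1))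
        ((hs w hw.1).2.2 hw.2)).differentiableWithinAt)
    have hbd : BddAbove (norm ∘ r '' (s \ {c})) := by
      refine ⟨B (ofComplex c) + 1, ?_⟩
      rintro _ ⟨w, hw, rfl⟩
      have hH' : 0 < ‖Hc w‖ := norm_pos_iff.mpr ((hs w hw.1).2.2 hw.2)
      simp only [Function.comp_apply, r, norm_div, div_le_iff₀ hH']
      refine le_trans (hb (ofComplex w)) ?_
      exact mul_le_mul_of_nonneg_right (hs w hw.1).2.1.le (norm_nonneg _)
    have hu := Complex.differentiableOn_update_limUnder_of_bddAbove (hso.mem_nhds hcs) hd hbd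
    refine ((hu.differentiableAt (hso.mem_nhds hcs)).congr_of_eventuallyEq ?_).differentiableWithinAt
    filter_upwards [hso.mem_nhds hcs] with w hw
    by_cases hwc : w = c
    · subst hwc; simp [g₀]
    · rw [Function.update_of_ne hwc]
      exact hval w (hs w hw).1 ((hs w hw).2.2 hwc)
  refine ⟨fun z ↦ g₀ z, mdifferentiable_iff.mpr (hdiff.congr fun w hw ↦ by
    simp [ofComplex_apply_of_im_pos hw]), ?_⟩
  funext z
  have hz : (z : ℂ) ∈ U := z.im_pos
  have h1 : Tendsto (fun w ↦ g₀ w * Hc w) (𝓝[≠] (z : ℂ)) (𝓝 (g₀ z * Hc z)) :=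
    ((hdiff.differentiableAt (hU.mem_nhds hz)).mul
      (hHc.differentiableAt (hU.mem_nhds hz))).continuousAt.tendsto.mono_left nhdsWithin_le_nhds
  have h2 : Tendsto Fc (𝓝[≠] (z : ℂ)) (𝓝 (Fc z)) :=
    (hFc.differentiableAt (hU.mem_nhds hz)).continuousAt.tendsto.mono_left nhdsWithin_le_nhds
  have h3 : (fun w ↦ g₀ w * Hc w) =ᶠ[𝓝[≠] (z : ℂ)] Fc := by
    filter_upwards [hne _ hz, nhdsWithin_le_nhds (hU.mem_nhds hz)] with w hw hwU
    rw [hval w hwU hw]
    exact div_mul_cancel₀ _ hw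
  have := tendsto_nhds_unique (h1.congr' h3) h2
  simpa [Fc, Hc, ofComplex_apply] using this

end Fermat.Agent.CuspIntStr
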