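import Fermat.Agent.CuspIntStr.Cosets
import Fermat.Agent.CuspIntStr.Removable

/-!
# Conjugates of cusp forms on `Γ₀(N)`

A cusp form `f` satisfies a monic equation over the forms of level one and, by Lagrange
interpolation at the conjugates of `g = Δ (N z)`, an identity `f h = r` with `h`, `r` polynomials in
`g` over the forms of level one.  Hence applying a field automorphism of `ℂ` to the `q`-expansion
of `f` gives again a cusp form (`exists_conj_cuspForm`).
-/

set_option autoImplicit false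

noncomputable section

namespace Fermat.Agent.CuspIntStr

open UpperHalfPlane ModularForm Filter
open scoped MatrixGroups ModularForm Topology Manifold

variable {N : ℕ} [NeZero N]

local notation "Γ₀" => CongruenceSubgroup.Gamma0 N

/-- A level one form as a nice function. -/
def lvlOne {w : ℤ} (f : ModularForm 𝒮ℒ w) : niceAlg := ⟨f, form_mem_niceAlg one_mem_periods_SL f⟩

omit [NeZero N] in
lemma levelOne_smul {w : ℤ} (f : ModularForm 𝒮ℒ w) (γ : SL(2, ℤ)) (z : ℍ) :
    f (γ • z) = jac γ z ^ w * f z :=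
  (slash_eq_self_iff _ _ γ).mp (SlashInvariantFormClass.slash_action_eq f _ ⟨γ, rfl⟩) z

variable (N) in
/-- `Δ (N z)` as a nice function. -/
def gN : niceAlg := ⟨deltaN N, deltaN_mem_niceAlg N⟩

/-- A cusp form as a nice function. -/
def cuspNice {k : ℤ} (f : CuspForm (CongruenceSubgroup.Gamma0 N) k) : niceAlg :=
  ⟨f, form_mem_niceAlg (CongruenceSubgroup.one_mem_strictPeriods_Gamma0 N) f⟩

variable (N) in
/-- The number of cosets. -/
abbrev numCosets : ℕ := Fintype.card (Cosets N)

lemma numCosets_pos : 0 < numCosets N := Fintype.card_pos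

/-- The denominator expression. -/
def genH (p : ℕ → niceAlg) : niceAlg :=
  ∑ j ∈ Finset.range (numCosets N + 1),
    (-1) ^ j * p j * ((numCosets N - j : ℕ) : niceAlg) * gN N ^ (numCosets N - j - 1)

/-- The numerator expression. -/
def genQ (p T : ℕ → niceAlg) : niceAlg :=
  ∑ j ∈ Finset.range (numCosets N + 1), (-1) ^ j * p j *
    ∑ i ∈ Finset.range (numCosets N - j), T i * gN N ^ (numCosets N - j - 1 - i)

lemma genH_apply (p : ℕ → niceAlg) (z : ℍ) :
    (genH (N := N) p : ℍ → ℂ) z = ∑ j ∈ Finset.range (numCosets N + 1),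
      (-1) ^ j * (p j : ℍ → ℂ) z * ((numCosets N - j : ℕ) : ℂ) *
        deltaN N z ^ (numCosets N - j - 1) := by
  simp [genH, gN, AddSubmonoidClass.coe_finsetSum, Finset.sum_apply]

lemma genQ_apply (p T : ℕ → niceAlg) (z : ℍ) :
    (genQ (N := N) p T : ℍ → ℂ) z = ∑ j ∈ Finset.range (numCosets N + 1), (-1) ^ j *
      (p j : ℍ → ℂ) z * ∑ i ∈ Finset.range (numCosets N - j),
        (T i : ℍ → ℂ) z * deltaN N z ^ (numCosets N - j - 1 - i) := by
  simp [genQ, gN, AddSubmonoidClass.coe_finsetSum, Finset.sum_apply]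

lemma hasWt_genH (p : ∀ j : ℕ, ModularForm 𝒮ℒ ((j : ℤ) * 12)) :
    HasWt Γ₀ (12 * ((numCosets N : ℤ) - 1)) (genH (N := N) fun j ↦ lvlOne (p j)) := by
  intro γ hγ z
  rw [genH_apply, genH_apply, Finset.mul_sum]
  refine Finset.sum_congr rfl fun j _ ↦ ?_
  rcases Nat.eq_zero_or_pos (numCosets N - j) with h | h
  · simp [h]
  change _ * p j (γ • z) * _ * _ = _ * (_ * p j z * _ * _)
  have hd : jac γ z ^ ((j : ℤ) * 12) * (jac γ z ^ (12 : ℤ)) ^ (numCosets N - j - 1) =
      jac γ z ^ (12 * ((numCosets N : ℤ) - 1)) := by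
    rw [← zpow_natCast (jac γ z ^ (12 : ℤ)), ← zpow_mul, ← zpow_add₀ (jac_ne_zero γ z)]
    congr 1
    omega
  rw [levelOne_smul, hasWt_deltaN N γ hγ z, mul_pow, ← hd]
  ring

lemma hasWt_genQ {k : ℤ} (p : ∀ j : ℕ, ModularForm 𝒮ℒ ((j : ℤ) * 12))
    (T : ∀ i : ℕ, ModularForm 𝒮ℒ (k + 12 * (i : ℤ))) :
    HasWt Γ₀ (k + 12 * ((numCosets N : ℤ) - 1))
      (genQ (N := N) (fun j ↦ lvlOne (p j)) fun i ↦ lvlOne (T i)) := by
  intro γ hγ z
  simp only [genQ_apply, Finset.mul_sum]
  refine Finset.sum_congr rfl fun j _ ↦ Finset.sum_congr rfl fun i hi ↦ ?_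
  have := Finset.mem_range.mp hi
  change _ * p j (γ • z) * (T i (γ • z) * _) = _ * (_ * p j z * (T i z * _))
  have hd : jac γ z ^ ((j : ℤ) * 12) * jac γ z ^ (k + 12 * (i : ℤ)) *
      (jac γ z ^ (12 : ℤ)) ^ (numCosets N - j - 1 - i) =
      jac γ z ^ (k + 12 * ((numCosets N : ℤ) - 1)) := by
    rw [← zpow_natCast (jac γ z ^ (12 : ℤ)), ← zpow_mul, ← zpow_add₀ (jac_ne_zero γ z),
      ← zpow_add₀ (jac_ne_zero γ z)]
    congr 1
    omega
  rw [levelOne_smul, levelOne_smul, hasWt_deltaN N γ hγ z, mul_pow, ← hd]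
  ring

variable (N) in
/-- The coefficients of the polynomial of the conjugates of `Δ (N z)`. -/
def pOne (j : ℕ) : niceAlg := lvlOne (esymForm (deltaNForm N) j)

/-- Weighted power sums. -/
def tOne {k : ℤ} (f : CuspForm (CongruenceSubgroup.Gamma0 N) k) (i : ℕ) : niceAlg :=
  lvlOne (powSumForm f i)

lemma genH_pOne_apply (z : ℍ) :
    (genH (N := N) (pOne N) : ℍ → ℂ) z =
      ∏ q ∈ Finset.univ.erase (QuotientGroup.mk 1 : Cosets N),
        (deltaN N z - conjFn N (deltaN N) 12 q z) := by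
  have hone : conjFn N (deltaN N) 12 (QuotientGroup.mk 1) z = deltaN N z := by
    rw [conjFn_one (hasWt_deltaN N)]
  have := kerPoly_eq (conjFn N (deltaN N) 12) z (QuotientGroup.mk 1) (deltaN N z)
  rw [hone] at this
  rw [← this, genH_apply, kerPoly]
  refine Finset.sum_congr rfl fun j _ ↦ ?_
  rw [geom_sum₂_self]
  change (-1) ^ j * esym N (conjFn N (deltaN N) 12) j z * _ * _ = _
  ring

/-- The denominator is not the zero function: `Δ (N z)` differs from its other conjugates. -/
lemma genH_pOne_ne_zero : (genH (N := N) (pOne N) : ℍ → ℂ) ≠ 0 := by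
  intro h
  have h' : ∏ q ∈ Finset.univ.erase (QuotientGroup.mk 1 : Cosets N),
      (deltaN N - conjFn N (deltaN N) 12 q) = 0 := by
    funext z
    rw [Finset.prod_apply]
    simpa [genH_pOne_apply] using congrFun h z
  obtain ⟨q, hq, hq'⟩ := (UpperHalfPlane.prod_eq_zero_iff fun q _ ↦
    (mdifferentiable_deltaN N).sub (mdifferentiable_conjFn (mdifferentiable_deltaN N) 12 q)).mp h'
  refine (Finset.mem_erase.mp hq).1 ?_
  by_contra hne
  refine deltaN_slash_ne N (γ := q.out⁻¹) (fun hmem ↦ hne ?_) (sub_eq_zero.mp hq').symm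
  rw [← QuotientGroup.out_eq' q, QuotientGroup.eq, mul_one]
  exact hmem

/-- Lagrange interpolation at the conjugates of `Δ (N z)`. -/
lemma cuspNice_mul_genH {k : ℤ} (f : CuspForm (CongruenceSubgroup.Gamma0 N) k) :
    cuspNice f * genH (N := N) (pOne N) = genQ (N := N) (pOne N) (tOne f) := by
  apply Subtype.ext
  funext z
  change f z * (genH (N := N) (pOne N) : ℍ → ℂ) z = _
  set x := deltaN N z
  set q₁ : Cosets N := QuotientGroup.mk 1
  have hone : conjFn N (deltaN N) 12 q₁ z = x := by rw [conjFn_one (hasWt_deltaN N)]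
  have hQ : (genQ (N := N) (pOne N) (tOne f) : ℍ → ℂ) z = ∑ q : Cosets N, conjFn N f k q z *
      kerPoly (conjFn N (deltaN N) 12) z (conjFn N (deltaN N) 12 q z) x := by
    rw [genQ_apply]
    simp only [kerPoly, Finset.mul_sum]
    conv_rhs => rw [Finset.sum_comm]; enter [2, j]; rw [Finset.sum_comm]
    refine Finset.sum_congr rfl fun j _ ↦ Finset.sum_congr rfl fun i _ ↦ ?_
    change (-1) ^ j * esym N (conjFn N (deltaN N) 12) j z * (powSum f i z * _) = _
    rw [powSum, Finset.sum_mul, Finset.mul_sum]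
    exact Finset.sum_congr rfl fun q _ ↦ by ring
  rw [hQ, Finset.sum_eq_single q₁]
  · rw [hone, conjFn_one (form_hasWt f), genH_pOne_apply, ← hone, kerPoly_eq]
    rw [hone]
  · intro q _ hq
    rw [← hone, kerPoly_eq, Finset.prod_eq_zero (Finset.mem_erase.mpr ⟨hq, Finset.mem_univ q⟩)
      (sub_self _), mul_zero]
  · simp

/-- The coefficients of a monic equation for `f`. -/
def charCoeff {k : ℤ} (f : CuspForm (CongruenceSubgroup.Gamma0 N) k) (j : ℕ) :
    ModularForm 𝒮ℒ (((numCosets N - j : ℕ) : ℤ) * k) :=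
  (-1 : ℂ) ^ (numCosets N - j) • esymForm f (numCosets N - j)

/-- `f` is a root of the polynomial of its conjugates over the forms of level one. -/
lemma monic_equation {k : ℤ} (f : CuspForm (CongruenceSubgroup.Gamma0 N) k) :
    cuspNice f ^ numCosets N +
      ∑ j ∈ Finset.range (numCosets N), lvlOne (charCoeff f j) * cuspNice f ^ j = 0 := by
  apply Subtype.ext
  funext z
  have h := prod_sub_eq_sum_esym (conjFn N f k) z (f z)
  rw [Finset.prod_eq_zero (Finset.mem_univ (QuotientGroup.mk 1 : Cosets N))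
    (by rw [conjFn_one (form_hasWt f), sub_self]), Finset.sum_range_succ', esym_zero] at h
  simp only [Subalgebra.coe_add, Subalgebra.coe_pow, AddSubmonoidClass.coe_finsetSum,
    Subalgebra.coe_mul, ZeroMemClass.coe_zero, Pi.zero_apply, Pi.add_apply, Pi.pow_apply,
    Finset.sum_apply, Pi.mul_apply]
  refine Eq.trans ?_ h.symm
  rw [pow_zero, one_mul, one_mul, Nat.sub_zero, add_comm,
    ← Finset.sum_range_reflect]
  refine congrArg₂ (· + ·) (Finset.sum_congr rfl fun j hj ↦ ?_) rfl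
  have hj' : j < numCosets N := Finset.mem_range.mp hj
  change ((-1 : ℂ) ^ _ * esym N (conjFn N f k) _ z) * f z ^ _ = _
  rw [show numCosets N - (numCosets N - 1 - j) = j + 1 by omega,
    show numCosets N - 1 - j = numCosets N - (j + 1) by omega]

lemma coeff_zero_charCoeff {k : ℤ} (f : CuspForm (CongruenceSubgroup.Gamma0 N) k) {j : ℕ}
    (hj : j < numCosets N) : (qExpansion 1 (charCoeff f j)).coeff 0 = 0 := by
  have hnice := form_mem_niceAlg one_mem_periods_SL (charCoeff f j)
  rw [qExpansion_coeff_zero one_pos (analyticAt_cuspFunction ⟨_, hnice⟩) (by simpa using hnice.1)]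
  refine IsZeroAtImInfty.valueAtInfty_eq_zero ?_
  have h0 := (esymForm_isZero f (j := numCosets N - j) (by omega))
  have := Tendsto.const_mul ((-1 : ℂ) ^ (numCosets N - j)) h0
  rw [mul_zero] at this
  exact this

/-- The `q`-expansion of `Δ (N z)` has rational coefficients. -/
lemma conjSeries_qHom_gN (σ : ℂ ≃+* ℂ) : conjSeries σ (qHom (gN N)) = qHom (gN N) := by
  obtain ⟨r, hr⟩ := qExpansion_deltaN_eq N
  change conjSeries σ (qExpansion 1 (deltaN N)) = qExpansion 1 (deltaN N)
  rw [hr]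
  ext m
  simp only [conjSeries, PowerSeries.coeff_map, PowerSeries.coeff_smul, coeff_intMap, smul_eq_mul,
    RingEquiv.toRingHom_eq_coe, RingEquiv.coe_toRingHom, map_mul, map_intCast, map_div₀, map_one,
    map_ofNat σ 1728]

/-- Dehomogenising: `x` is at most `B * ‖y‖` if `(x, y)` is a root of a monic form. -/
lemma norm_le_of_monic_form_root {n : ℕ} (hn : n ≠ 0) (a : ℕ → ℂ) {x y : ℂ}
    (h : x ^ n + ∑ j ∈ Finset.range n, a j * x ^ j * y ^ (n - j) = 0) :
    ‖x‖ ≤ (1 + ∑ j ∈ Finset.range n, ‖a j‖) * ‖y‖ := by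
  by_cases hy : y = 0
  · rw [Finset.sum_eq_zero fun j hj ↦ by
      rw [hy, zero_pow (by have := Finset.mem_range.mp hj; omega), mul_zero], add_zero] at h
    simp [hy, pow_eq_zero_iff hn |>.mp h]
  · have h2 : (x / y) ^ n + ∑ j ∈ Finset.range n, a j * (x / y) ^ j = 0 := by
      refine mul_right_cancel₀ (pow_ne_zero n hy) ?_
      rw [zero_mul, ← h, add_mul, Finset.sum_mul, div_pow, div_mul_cancel₀ _ (pow_ne_zero n hy)]
      congr 1
      refine Finset.sum_congr rfl fun j hj ↦ ?_
      have := Finset.mem_range.mp hj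
      rw [div_pow]
      conv_lhs => rw [show n = n - j + j by omega, pow_add]
      field_simp
    have h3 := norm_le_of_monic_root _ h2
    rwa [norm_div, div_le_iff₀ (norm_pos_iff.mpr hy)] at h3

/-- A ratio `F / H` satisfying a monic equation with holomorphic coefficients is holomorphic and
satisfies the equation. -/
lemma exists_integral_quotient {n : ℕ} (hn : n ≠ 0) {F H : ℍ → ℂ} (hF : MDiff F) (hH : MDiff H)
    (hH0 : H ≠ 0) {a : ℕ → ℍ → ℂ} (ha : ∀ j, MDiff (a j))
    (h : ∀ z, F z ^ n + ∑ j ∈ Finset.range n, a j z * F z ^ j * H z ^ (n - j) = 0) :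
    ∃ g : ℍ → ℂ, MDiff g ∧ g * H = F ∧
      ∀ z, g z ^ n + ∑ j ∈ Finset.range n, a j z * g z ^ j = 0 := by
  have hBc : Continuous fun z ↦ 1 + ∑ j ∈ Finset.range n, ‖a j z‖ :=
    continuous_const.add (continuous_finsetSum _ fun j _ ↦ (ha j).continuous.norm)
  obtain ⟨g, hgd, hgH⟩ := exists_div hF hH hH0 hBc fun z ↦ norm_le_of_monic_form_root hn _ (h z)
  refine ⟨g, hgd, hgH, ?_⟩
  have hprod : (g ^ n + ∑ j ∈ Finset.range n, a j * g ^ j) * H ^ n = 0 := by
    funext z
    simp only [Pi.mul_apply, Pi.add_apply, Pi.pow_apply, Finset.sum_apply, Pi.zero_apply]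
    rw [← h z, add_mul, Finset.sum_mul, ← hgH, Pi.mul_apply, mul_pow]
    congr 1
    refine Finset.sum_congr rfl fun j hj ↦ ?_
    have := Finset.mem_range.mp hj
    rw [mul_pow]
    conv_lhs => rw [show n = n - j + j by omega, pow_add]
    ring
  have hd : MDiff (g ^ n + ∑ j ∈ Finset.range n, a j * g ^ j) :=
    (hgd.pow n).add (.sum fun j _ ↦ (ha j).mul (hgd.pow j))
  rcases (UpperHalfPlane.mul_eq_zero_iff hd (hH.pow n)).mp hprod with h0 | h0
  · intro z
    simpa [Finset.sum_apply] using congrFun h0 z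
  · refine absurd ?_ hH0
    funext z
    exact eq_zero_of_pow_eq_zero (congrFun h0 z)

omit [NeZero N] in
/-- A holomorphic quotient of functions of weights `k + m` and `m` has weight `k`. -/
lemma hasWt_quotient {k m : ℤ} {g F H : ℍ → ℂ} (hgd : MDiff g) (hH : MDiff H) (hH0 : H ≠ 0)
    (hgH : g * H = F) (hHw : HasWt Γ₀ m H) (hFw : HasWt Γ₀ (k + m) F) : HasWt Γ₀ k g := by
  rw [hasWt_iff]
  intro γ hγ
  have hd1 : MDiff (g ∣[k] γ - g) := by
    rw [ModularForm.SL_slash]
    exact (hgd.slash _ _).sub hgd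
  have h0 : (g ∣[k] γ - g) * H = 0 := by
    funext z
    have hFz := hFw γ hγ z
    rw [← hgH, Pi.mul_apply, Pi.mul_apply, hHw γ hγ z, zpow_add₀ (jac_ne_zero γ z)] at hFz
    simp only [Pi.mul_apply, Pi.sub_apply, Pi.zero_apply, slash_eq_jac, zpow_neg]
    have hj := zpow_ne_zero k (jac_ne_zero γ z)
    have h5 : g (γ • z) * H z = jac γ z ^ k * (g z * H z) :=
      mul_left_cancel₀ (zpow_ne_zero m (jac_ne_zero γ z)) (by linear_combination hFz)
    field_simp
    linear_combination h5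
  rcases (UpperHalfPlane.mul_eq_zero_iff hd1 hH).mp h0 with h | h
  · exact sub_eq_zero.mp h
  · exact absurd h hH0

/-- Slashing permutes the roots of a monic equation over the forms of level one of weights
`(n - j) k`. -/
lemma monic_root_slash {n : ℕ} {k : ℤ} (a : ∀ j : ℕ, ModularForm 𝒮ℒ (((n - j : ℕ) : ℤ) * k))
    {g : ℍ → ℂ} (hg : ∀ z, g z ^ n + ∑ j ∈ Finset.range n, a j z * g z ^ j = 0) (γ : SL(2, ℤ))
    (z : ℍ) : (g ∣[k] γ) z ^ n + ∑ j ∈ Finset.range n, a j z * (g ∣[k] γ) z ^ j = 0 := by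
  have h6 := hg (γ • z)
  have hj := jac_ne_zero γ z
  rw [slash_eq_jac]
  have h7 := congrArg (· * (jac γ z ^ (-k)) ^ n) h6
  simp only [add_mul, Finset.sum_mul, zero_mul] at h7
  rw [← h7, mul_pow]
  congr 1
  refine Finset.sum_congr rfl fun j hj' ↦ ?_
  have hjn := Finset.mem_range.mp hj'
  rw [levelOne_smul (a j) γ z, mul_pow, zpow_neg,
    show jac γ z ^ (((n - j : ℕ) : ℤ) * k) = (jac γ z ^ k) ^ (n - j) by
      rw [mul_comm, zpow_mul, zpow_natCast]]
  have hk := zpow_ne_zero k hj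
  simp only [inv_pow]
  rw [show (jac γ z ^ k) ^ n = (jac γ z ^ k) ^ (n - j) * (jac γ z ^ k) ^ j by
    rw [← pow_add, show n - j + j = n by omega]]
  field_simp

/-- A root of a monic equation whose coefficients vanish at `∞` vanishes at `∞`. -/
lemma isZeroAtImInfty_of_monic_root {n : ℕ} {a : ℕ → ℍ → ℂ} {g : ℍ → ℂ}
    (ha : ∀ j ∈ Finset.range n, IsZeroAtImInfty (a j))
    (hg : ∀ z, g z ^ n + ∑ j ∈ Finset.range n, a j z * g z ^ j = 0) : IsZeroAtImInfty g := by
  rw [isZeroAtImInfty_iff]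
  intro ε hε
  set δ : ℝ := min ε 1 with hδ
  have hδ0 : 0 < δ := lt_min hε one_pos
  have htend : Tendsto (fun z ↦ ∑ j ∈ Finset.range n, ‖a j z‖) atImInfty (𝓝 0) := by
    rw [show (0 : ℝ) = ∑ j ∈ Finset.range n, (0 : ℝ) by simp]
    exact tendsto_finsetSum _ fun j hj ↦ tendsto_zero_iff_norm_tendsto_zero.mp (ha j hj)
  obtain ⟨A, hA⟩ := (atImInfty_mem _).mp (htend.eventually_lt_const (pow_pos hδ0 n))
  exact ⟨A, fun z hz ↦ ((norm_lt_of_monic_root _ hδ0 (min_le_right _ _) (hg z) (hA z hz)).trans_le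
    (min_le_left _ _)).le⟩

/-- The conjugate of a cusp form by a field automorphism is a cusp form. -/
theorem exists_conj_cuspForm {k : ℤ} (f : CuspForm (CongruenceSubgroup.Gamma0 N) k)
    (σ : ℂ ≃+* ℂ) : ∃ g : CuspForm (CongruenceSubgroup.Gamma0 N) k,
      qExpansion 1 g = conjSeries σ (qExpansion 1 f) := by
  set n := numCosets N
  choose p hp using fun j ↦ exists_conj_levelOne σ (esymForm (deltaNForm N) j)
  choose T hT using fun i ↦ exists_conj_levelOne σ (powSumForm f i)
  choose a ha using fun j ↦ exists_conj_levelOne σ (charCoeff f j)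
  have hp' : ∀ j, qHom (lvlOne (p j)) = conjSeries σ (qHom (pOne N j)) := hp
  have hT' : ∀ i, qHom (lvlOne (T i)) = conjSeries σ (qHom (tOne f i)) := hT
  have ha' : ∀ j, qHom (lvlOne (a j)) = conjSeries σ (qHom (lvlOne (charCoeff f j))) := ha
  have hG := conjSeries_qHom_gN (N := N) σ
  set F : niceAlg := genQ (N := N) (fun j ↦ lvlOne (p j)) fun i ↦ lvlOne (T i) with hFdef
  set H : niceAlg := genH (N := N) fun j ↦ lvlOne (p j) with hHdef
  have hqH : qHom H = conjSeries σ (qHom (genH (N := N) (pOne N))) := by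
    simp only [hHdef, genH, map_sum, map_mul, map_pow, map_natCast, map_neg, map_one, hG, hp']
  have hqF : qHom F = conjSeries σ (qHom (genQ (N := N) (pOne N) (tOne f))) := by
    simp only [hFdef, genQ, map_sum, map_mul, map_pow, map_neg, map_one, hG, hp', hT']
  have hH0 : H ≠ 0 := by
    intro h
    rw [h, map_zero] at hqH
    have h1 : qHom (genH (N := N) (pOne N)) = 0 :=
      PowerSeries.map_injective _ σ.injective (hqH.symm.trans (map_zero _).symm)
    exact genH_pOne_ne_zero (N := N)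
      (congrArg Subtype.val (qHom_injective (h1.trans (map_zero _).symm)))
  have hFf : qHom F = conjSeries σ (qHom (cuspNice f)) * qHom H := by
    rw [hqF, hqH, ← cuspNice_mul_genH, map_mul, map_mul]
  -- the conjugate of the monic equation of `f`, between `F` and `H`
  have hEq : F ^ n + ∑ j ∈ Finset.range n, lvlOne (a j) * F ^ j * H ^ (n - j) = 0 := by
    apply qHom_injective
    rw [map_zero]
    have h1 := congrArg (fun x ↦ conjSeries σ (qHom x) * qHom H ^ n) (monic_equation f)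
    simp only [map_add, map_pow, map_sum, map_mul, map_zero, zero_mul, add_mul, Finset.sum_mul,
      ← ha'] at h1
    simp only [map_add, map_pow, map_sum, map_mul, hFf]
    rw [← h1, mul_pow]
    congr 1
    refine Finset.sum_congr rfl fun j hj ↦ ?_
    have := Finset.mem_range.mp hj
    rw [mul_pow]
    obtain ⟨i, hi⟩ : ∃ i, n = j + i := ⟨n - j, by omega⟩
    rw [hi, show j + i - j = i by omega, pow_add]
    ring
  have hEqz : ∀ z : ℍ, (F : ℍ → ℂ) z ^ n + ∑ j ∈ Finset.range n,
      a j z * (F : ℍ → ℂ) z ^ j * (H : ℍ → ℂ) z ^ (n - j) = 0 := by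
    intro z
    simpa [Finset.sum_apply, AddSubmonoidClass.coe_finsetSum, lvlOne] using
      congrFun (congrArg Subtype.val hEq) z
  -- hence `F / H` is a cusp form
  have hH0' : (H : ℍ → ℂ) ≠ 0 := fun h ↦ hH0 (Subtype.ext h)
  obtain ⟨g, hgd, hgH, hgeq⟩ := exists_integral_quotient numCosets_pos.ne' F.2.2.1 H.2.2.1 hH0'
    (a := fun j ↦ ⇑(a j)) (fun j ↦ ModularFormClass.holo (a j)) hEqz
  have hwt : HasWt Γ₀ k g :=
    hasWt_quotient hgd H.2.2.1 hH0' hgH (hasWt_genH p) (hasWt_genQ p T)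
  have hzero : ∀ γ : SL(2, ℤ), IsZeroAtImInfty (g ∣[k] γ) := fun γ ↦
    isZeroAtImInfty_of_monic_root (a := fun j ↦ ⇑(a j)) (fun j hj ↦ CuspFormClass.zero_at_infty
      (toCuspForm (a j) (by
        rw [ha j, conjSeries, PowerSeries.coeff_map,
          coeff_zero_charCoeff f (Finset.mem_range.mp hj), map_zero])))
      (monic_root_slash a hgeq γ)
  let g' : CuspForm (CongruenceSubgroup.Gamma0 N) k :=
    { toFun := g
      slash_action_eq' := fun x hx ↦ by
        obtain ⟨γ, hγ, rfl⟩ := hx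
        exact hasWt_iff.mp hwt γ hγ
      holo' := hgd
      zero_at_cusps' := fun hc ↦ by
        rw [Subgroup.IsArithmetic.isCusp_iff_isCusp_SL2Z] at hc
        exact (OnePoint.isZeroAt_iff_forall_SL2Z hc).mpr fun γ _ ↦ hzero γ }
  refine ⟨g', ?_⟩
  have h8 : cuspNice g' * H = F := Subtype.ext hgH
  have hqH0 : qHom H ≠ 0 := fun h ↦ hH0 (qHom_injective (h.trans (map_zero _).symm))
  have h9 := congrArg qHom h8
  rw [map_mul, hFf] at h9
  exact mul_right_cancel₀ hqH0 h9

end Fermat.Agent.CuspIntStr
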