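import Fermat.Agent.CuspIntStr.DeltaN

/-!
# Symmetric functions of the conjugates of a form on `Γ₀(N)`

The elementary symmetric functions and the weighted power sums of the slashes of a cusp form over
the cosets of `Γ₀(N)` in `SL(2, ℤ)` are forms of level one; `kerPoly` is the interpolation kernel
of a family indexed by the cosets.
-/

set_option autoImplicit false

noncomputable section

namespace Fermat.Agent.CuspIntStr

open UpperHalfPlane ModularForm Filter
open scoped MatrixGroups ModularForm Topology Manifold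

variable (N : ℕ) [NeZero N]

/-- The coset space. -/
abbrev Cosets : Type := SL(2, ℤ) ⧸ CongruenceSubgroup.Gamma0 N

instance : Finite (Cosets N) :=
  Subgroup.finiteIndex_iff_finite_quotient.mp inferInstance

instance : Fintype (Cosets N) := Fintype.ofFinite _

instance : DecidableEq (Cosets N) := Classical.decEq _

/-- The conjugate of `f` attached to a coset. -/
def conjFn (f : ℍ → ℂ) (k : ℤ) (q : Cosets N) : ℍ → ℂ := f ∣[k] q.out⁻¹

variable {N}

omit [NeZero N] in
lemma conjFn_mk {f : ℍ → ℂ} {k : ℤ} (hf : HasWt (CongruenceSubgroup.Gamma0 N) k f)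
    (h : SL(2, ℤ)) : conjFn N f k (QuotientGroup.mk h) = f ∣[k] h⁻¹ := by
  obtain ⟨g, hg⟩ := QuotientGroup.mk_out_eq_mul (CongruenceSubgroup.Gamma0 N) h
  rw [conjFn, hg, mul_inv_rev, SlashAction.slash_mul, hasWt_iff.mp hf _ (inv_mem g.2)]

omit [NeZero N] in
/-- The conjugate at the trivial coset is the function itself. -/
lemma conjFn_one {f : ℍ → ℂ} {k : ℤ} (hf : HasWt (CongruenceSubgroup.Gamma0 N) k f) :
    conjFn N f k (QuotientGroup.mk 1) = f := by
  rw [conjFn_mk hf, inv_one, SlashAction.slash_one]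

omit [NeZero N] in
lemma conjFn_smul {f : ℍ → ℂ} {k : ℤ} (hf : HasWt (CongruenceSubgroup.Gamma0 N) k f)
    (γ : SL(2, ℤ)) (q : Cosets N) (z : ℍ) :
    conjFn N f k q (γ • z) = jac γ z ^ k * conjFn N f k (γ⁻¹ • q) z := by
  induction q using QuotientGroup.induction_on with
  | H h =>
    rw [MulAction.Quotient.smul_mk, conjFn_mk hf, conjFn_mk hf, smul_eq_mul, mul_inv_rev, inv_inv,
      SlashAction.slash_mul, slash_eq_jac (f ∣[k] h⁻¹), zpow_neg]
    have := zpow_ne_zero k (jac_ne_zero γ z)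
    field_simp

omit [NeZero N] in
/-- Conjugates of holomorphic functions are holomorphic. -/
lemma mdifferentiable_conjFn {f : ℍ → ℂ} (hf : MDiff f) (k : ℤ) (q : Cosets N) :
    MDiff (conjFn N f k q) := by
  rw [conjFn, ModularForm.SL_slash]
  exact hf.slash _ _

omit [NeZero N] in
lemma isZeroAtImInfty_conjFn {k : ℤ} (f : CuspForm (CongruenceSubgroup.Gamma0 N) k)
    [NeZero N] (q : Cosets N) : IsZeroAtImInfty (conjFn N f k q) := by
  have hc : IsCusp ((Matrix.SpecialLinearGroup.mapGL ℝ q.out⁻¹ : GL (Fin 2) ℝ) • OnePoint.infty)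
      ((CongruenceSubgroup.Gamma0 N).map (Matrix.SpecialLinearGroup.mapGL ℝ)) := by
    rw [Subgroup.IsArithmetic.isCusp_iff_isCusp_SL2Z, isCusp_SL2Z_iff']
    exact ⟨_, rfl⟩
  exact f.zero_at_cusps' hc (Matrix.SpecialLinearGroup.mapGL ℝ q.out⁻¹) rfl

variable (N)

/-- Elementary symmetric function of a family of functions indexed by cosets. -/
def esym (F : Cosets N → ℍ → ℂ) (j : ℕ) (z : ℍ) : ℂ :=
  ∑ S ∈ (Finset.univ : Finset (Cosets N)).powersetCard j, ∏ q ∈ S, F q z

variable {N}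

/-- The elementary symmetric function of degree `0` is `1`. -/
lemma esym_zero (F : Cosets N → ℍ → ℂ) (z : ℍ) : esym N F 0 z = 1 := by simp [esym]

lemma esym_smul {f : ℍ → ℂ} {k : ℤ} (hf : HasWt (CongruenceSubgroup.Gamma0 N) k f) (j : ℕ)
    (γ : SL(2, ℤ)) (z : ℍ) :
    esym N (conjFn N f k) j (γ • z) = jac γ z ^ ((j : ℤ) * k) * esym N (conjFn N f k) j z := by
  rw [esym, esym, Finset.mul_sum]
  refine Finset.sum_equiv (Equiv.finsetCongr (MulAction.toPerm γ⁻¹)) (fun S ↦ by simp) fun S hS ↦ ?_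
  have hcard : S.card = j := (Finset.mem_powersetCard.mp hS).2
  rw [Finset.prod_congr rfl fun q _ ↦ conjFn_smul hf γ q z, Finset.prod_mul_distrib,
    Finset.prod_const, hcard, ← zpow_natCast (jac γ z ^ k), ← zpow_mul, mul_comm k,
    Equiv.finsetCongr_apply, Finset.prod_map]
  rfl

/-- The elementary symmetric function of the conjugates, as a form of level one. -/
def esymForm {k : ℤ} (f : CuspForm (CongruenceSubgroup.Gamma0 N) k) (j : ℕ) :
    ModularForm 𝒮ℒ ((j : ℤ) * k) where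
  toFun := esym N (conjFn N f k) j
  slash_action_eq' g hg := by
    obtain ⟨γ, rfl⟩ := hg
    exact (slash_eq_self_iff _ _ γ).mpr fun z ↦ esym_smul (form_hasWt f) j γ z
  holo' := by
    change MDiff (esym N (conjFn N f k) j)
    rw [show esym N (conjFn N f k) j =
      ∑ S ∈ (Finset.univ : Finset (Cosets N)).powersetCard j, ∏ q ∈ S, conjFn N f k q by
      funext z; simp [esym, Finset.sum_apply, Finset.prod_apply]]
    refine .sum fun S _ ↦ .prod fun q _ ↦ ?_
    exact mdifferentiable_conjFn f.holo' k q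
  bdd_at_cusps' hc := by
    refine (OnePoint.isBoundedAt_iff_forall_SL2Z hc).mpr fun γ _ ↦ ?_
    rw [(slash_eq_self_iff _ _ γ).mpr fun z ↦ esym_smul (form_hasWt f) j γ z]
    refine Asymptotics.IsBigO.fun_sum fun S _ ↦ ?_
    rw [show (1 : ℍ → ℝ) = fun _ ↦ ∏ q ∈ S, (1 : ℝ) by funext; simp]
    exact Asymptotics.IsBigO.finsetProd fun q _ ↦
      (isZeroAtImInfty_conjFn f q).isBoundedAtImInfty

/-- The symmetric functions of positive degree in the conjugates of a cusp form vanish at `∞`. -/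
lemma esymForm_isZero {k : ℤ} (f : CuspForm (CongruenceSubgroup.Gamma0 N) k) {j : ℕ}
    (hj : j ≠ 0) : IsZeroAtImInfty (esymForm f j) := by
  change Tendsto (esym N (conjFn N f k) j) atImInfty (𝓝 0)
  rw [show (0 : ℂ) = ∑ S ∈ (Finset.univ : Finset (Cosets N)).powersetCard j, 0 by simp]
  refine tendsto_finsetSum _ fun S hS ↦ ?_
  have hS' : S.Nonempty := by
    rw [← Finset.card_pos, (Finset.mem_powersetCard.mp hS).2]; omega
  rw [show (0 : ℂ) = ∏ q ∈ S, (0 : ℂ) by
    rw [Finset.prod_const, zero_pow (Finset.card_ne_zero.mpr hS')]]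
  exact tendsto_finsetProd S fun q _ ↦ isZeroAtImInfty_conjFn f q

/-- Weighted power sums. -/
def powSum {k : ℤ} (f : CuspForm (CongruenceSubgroup.Gamma0 N) k) (i : ℕ) (z : ℍ) : ℂ :=
  ∑ q : Cosets N, conjFn N f k q z * conjFn N (deltaN N) 12 q z ^ i

lemma powSum_smul {k : ℤ} (f : CuspForm (CongruenceSubgroup.Gamma0 N) k) (i : ℕ)
    (γ : SL(2, ℤ)) (z : ℍ) :
    powSum f i (γ • z) = jac γ z ^ (k + 12 * (i : ℤ)) * powSum f i z := by
  rw [powSum, powSum, Finset.mul_sum]
  refine Fintype.sum_equiv (MulAction.toPerm γ⁻¹) _ _ fun q ↦ ?_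
  rw [conjFn_smul (form_hasWt f), conjFn_smul (hasWt_deltaN N), mul_pow,
    ← zpow_natCast (jac γ z ^ (12 : ℤ)), ← zpow_mul, zpow_add₀ (jac_ne_zero γ z)]
  simp only [MulAction.toPerm_apply]
  ring

/-- Weighted power sums as forms of level one. -/
def powSumForm {k : ℤ} (f : CuspForm (CongruenceSubgroup.Gamma0 N) k) (i : ℕ) :
    ModularForm 𝒮ℒ (k + 12 * (i : ℤ)) where
  toFun := powSum f i
  slash_action_eq' g hg := by
    obtain ⟨γ, rfl⟩ := hg
    exact (slash_eq_self_iff _ _ γ).mpr fun z ↦ powSum_smul f i γ z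
  holo' := by
    change MDiff (powSum f i)
    rw [show powSum f i = ∑ q : Cosets N, conjFn N f k q * conjFn N (deltaN N) 12 q ^ i by
      funext z; simp [powSum, Finset.sum_apply]]
    exact .sum fun q _ ↦ (mdifferentiable_conjFn f.holo' k q).mul
      ((mdifferentiable_conjFn (mdifferentiable_deltaN N) 12 q).pow i)
  bdd_at_cusps' hc := by
    refine (OnePoint.isBoundedAt_iff_forall_SL2Z hc).mpr fun γ _ ↦ ?_
    rw [(slash_eq_self_iff _ _ γ).mpr fun z ↦ powSum_smul f i γ z]
    refine Asymptotics.IsBigO.fun_sum fun q _ ↦ ?_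
    rw [show (1 : ℍ → ℝ) = fun _ ↦ (1 : ℝ) * 1 ^ i by funext; simp]
    refine Asymptotics.IsBigO.mul (isZeroAtImInfty_conjFn f q).isBoundedAtImInfty
      (Asymptotics.IsBigO.pow ?_ i)
    exact (isZeroAtImInfty_conjFn (deltaNForm N) q).isBoundedAtImInfty

/-- The product `∏ (y - F_q z)` in terms of elementary symmetric functions. -/
lemma prod_sub_eq_sum_esym (F : Cosets N → ℍ → ℂ) (z : ℍ) (y : ℂ) :
    ∏ q, (y - F q z) = ∑ j ∈ Finset.range (Fintype.card (Cosets N) + 1),
      (-1) ^ j * esym N F j z * y ^ (Fintype.card (Cosets N) - j) := by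
  simp_rw [sub_eq_neg_add]
  rw [Finset.prod_add, Finset.sum_powerset, Finset.card_univ]
  refine Finset.sum_congr rfl fun j _ ↦ ?_
  rw [esym, Finset.mul_sum, Finset.sum_mul]
  refine Finset.sum_congr rfl fun S hS ↦ ?_
  have hcard := (Finset.mem_powersetCard.mp hS).2
  rw [Finset.prod_const, Finset.card_sdiff, Finset.inter_univ, Finset.card_univ, hcard,
    Finset.prod_neg, hcard]

/-- `Σ_j (-1)^j e_j (y^(n-j) - x^(n-j)) / (y - x)`. -/
def kerPoly (F : Cosets N → ℍ → ℂ) (z : ℍ) (y x : ℂ) : ℂ :=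
  ∑ j ∈ Finset.range (Fintype.card (Cosets N) + 1), (-1) ^ j * esym N F j z *
    ∑ i ∈ Finset.range (Fintype.card (Cosets N) - j),
      y ^ i * x ^ (Fintype.card (Cosets N) - j - 1 - i)

lemma sub_mul_kerPoly (F : Cosets N → ℍ → ℂ) (z : ℍ) (y x : ℂ) :
    (y - x) * kerPoly F z y x = ∏ q, (y - F q z) - ∏ q, (x - F q z) := by
  rw [prod_sub_eq_sum_esym, prod_sub_eq_sum_esym, kerPoly, Finset.mul_sum, ← Finset.sum_sub_distrib]
  refine Finset.sum_congr rfl fun j _ ↦ ?_
  rw [← mul_sub, ← geom_sum₂_mul]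
  ring

/-- At one of the conjugates the interpolation kernel is the product over the others. -/
lemma kerPoly_eq (F : Cosets N → ℍ → ℂ) (z : ℍ) (q₀ : Cosets N) (y : ℂ) :
    kerPoly F z y (F q₀ z) = ∏ q ∈ Finset.univ.erase q₀, (y - F q z) := by
  have hcont : Continuous fun t : ℂ ↦ kerPoly F z t (F q₀ z) := by unfold kerPoly; fun_prop
  have hcont' : Continuous fun t : ℂ ↦ ∏ q ∈ Finset.univ.erase q₀, (t - F q z) := by fun_prop
  have := hcont.ext_on (dense_compl_singleton (F q₀ z)) hcont' fun t ht ↦ ?_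
  · exact congrFun this y
  have h := sub_mul_kerPoly F z t (F q₀ z)
  rw [Finset.prod_eq_zero (i := q₀) (f := fun q ↦ F q₀ z - F q z) (Finset.mem_univ q₀) (sub_self _),
    sub_zero, ← Finset.mul_prod_erase _ _ (Finset.mem_univ q₀)] at h
  exact mul_left_cancel₀ (sub_ne_zero.mpr ht) h

end Fermat.Agent.CuspIntStr
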