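import Fermat.Agent.CuspIntStr.LevelOne
import Fermat.Prelude.Thm_CongruenceSubgroup_one_mem_strictPeriods_Gamma0

/-!
# The form `z ↦ Δ (N z)` and its conjugates

`Δ (N z)` is a cusp form of weight `12` on `Γ₀(N)`, its `q`-expansion is a multiple of an integral
one, and its slash by any element of `SL(2, ℤ)` outside `Γ₀(N)` differs from it.
-/

set_option autoImplicit false

noncomputable section

namespace Fermat.Agent.CuspIntStr

open UpperHalfPlane ModularForm Filter Matrix.SpecialLinearGroup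
open scoped MatrixGroups ModularForm Topology Manifold Real

/-- The point `(A z + B) / D`. -/
def affPt (A D : ℕ) (B : ℤ) (hA : A ≠ 0) (hD : D ≠ 0) (z : ℍ) : ℍ :=
  ⟨((A : ℂ) * z + B) / D, by
    have : (((A : ℂ) * z + B) / D).im = A * z.im / D := by simp [Complex.div_natCast_im]
    rw [this]
    have hA' : (0 : ℝ) < A := by exact_mod_cast Nat.pos_of_ne_zero hA
    have hD' : (0 : ℝ) < D := by exact_mod_cast Nat.pos_of_ne_zero hD
    have := z.im_pos
    positivity⟩

lemma coe_affPt (A D : ℕ) (B : ℤ) (hA : A ≠ 0) (hD : D ≠ 0) (z : ℍ) :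
    (affPt A D B hA hD z : ℂ) = ((A : ℂ) * z + B) / D := rfl

lemma im_affPt (A D : ℕ) (B : ℤ) (hA : A ≠ 0) (hD : D ≠ 0) (z : ℍ) :
    (affPt A D B hA hD z).im = A * z.im / D := by
  change (((A : ℂ) * z + B) / D).im = _
  simp [Complex.div_natCast_im]

lemma tendsto_affPt (A D : ℕ) (B : ℤ) (hA : A ≠ 0) (hD : D ≠ 0) :
    Tendsto (affPt A D B hA hD) atImInfty atImInfty := by
  simp only [atImInfty, tendsto_comap_iff, Function.comp_def, im_affPt]
  have hA' : (0 : ℝ) < A := by exact_mod_cast Nat.pos_of_ne_zero hA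
  have hD' : (0 : ℝ) < D := by exact_mod_cast Nat.pos_of_ne_zero hD
  have h : (fun z : ℍ ↦ (A : ℝ) * z.im / D) = (fun y : ℝ ↦ (A / D : ℝ) * y) ∘ UpperHalfPlane.im := by
    funext z; simp [mul_div_right_comm]
  rw [h]
  exact (tendsto_id.const_mul_atTop (div_pos hA' hD')).comp tendsto_comap

variable (N : ℕ) [NeZero N]

/-- `z ↦ Δ (N z)`. -/
def deltaN (z : ℍ) : ℂ := discriminant (affPt N 1 0 (NeZero.ne N) one_ne_zero z)

omit [NeZero N] in
/-- `Δ` has weight twelve under `SL(2, ℤ)`. -/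
lemma discriminant_smul (δ : SL(2, ℤ)) (w : ℍ) :
    discriminant (δ • w) = jac δ w ^ (12 : ℤ) * discriminant w := by
  have h : discriminant ∣[(12 : ℤ)] δ = discriminant :=
    SlashInvariantFormClass.slash_action_eq CuspForm.discriminant _ ⟨δ, rfl⟩
  exact (slash_eq_self_iff _ _ _).mp h w

omit [NeZero N] in
lemma jac_eq (γ : SL(2, ℤ)) (z : ℍ) : jac γ z = (γ 1 0 : ℂ) * z + (γ 1 1 : ℂ) :=
  ModularGroup.denom_apply γ z

omit [NeZero N] in
lemma gamma0_mem_iff_dvd (γ : SL(2, ℤ)) :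
    γ ∈ CongruenceSubgroup.Gamma0 N ↔ (N : ℤ) ∣ γ 1 0 := by
  rw [CongruenceSubgroup.Gamma0_mem, ZMod.intCast_zmod_eq_zero_iff_dvd]

/-- Behaviour of `Δ (N z)` under `SL(2, ℤ)`. -/
lemma deltaN_smul (γ : SL(2, ℤ)) :
    ∃ (A D : ℕ) (B : ℤ) (hA : A ≠ 0) (hD : D ≠ 0), A * D = N ∧
      (γ ∈ CongruenceSubgroup.Gamma0 N ↔ A = N) ∧
      ∀ z : ℍ, deltaN N (γ • z) =
        (jac γ z / D) ^ (12 : ℤ) * discriminant (affPt A D B hA hD z) := by
  set a := γ 0 0 with ha
  set b := γ 0 1 with hb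
  set c := γ 1 0 with hc
  set d := γ 1 1 with hd
  have hdet : a * d - b * c = 1 := by
    have := γ.det_coe
    rwa [Matrix.det_fin_two] at this
  set A : ℕ := Int.gcd (N : ℤ) c with hAdef
  have hN : (N : ℤ) ≠ 0 := by exact_mod_cast NeZero.ne N
  have hA : A ≠ 0 := fun h ↦ hN (Int.gcd_eq_zero_iff.mp h).1
  have hA' : (A : ℤ) ≠ 0 := by exact_mod_cast hA
  obtain ⟨n', hn'⟩ : (A : ℤ) ∣ (N : ℤ) := Int.gcd_dvd_left _ _
  obtain ⟨c', hc'⟩ : (A : ℤ) ∣ c := Int.gcd_dvd_right _ _
  have hn'0 : 0 < n' := by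
    have h1 : (0 : ℤ) < (A : ℤ) * n' := by rw [← hn']; exact_mod_cast NeZero.pos N
    exact pos_of_mul_pos_right h1 (by positivity)
  have hcop : IsCoprime (n' * a) c' := by
    refine IsCoprime.mul_left ?_ ?_
    · rw [Int.isCoprime_iff_gcd_eq_one]
      have h := hAdef
      rw [hn', hc', Int.gcd_mul_left, Int.natAbs_natCast] at h
      exact mul_left_cancel₀ hA (by rw [← h, mul_one])
    · exact ⟨d, -(b * A), by rw [hc'] at hdet; linear_combination hdet⟩
  obtain ⟨u, v, huv⟩ := hcop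
  set D' : ℤ := -c' * (N * b) + n' * a * d with hD'
  have hAD : (A : ℤ) * D' = N := by
    rw [hD', hn']
    rw [hc'] at hdet
    linear_combination ((A : ℤ) * n') * hdet
  have hD'pos : 0 < D' := by
    have h1 : (0 : ℤ) < (A : ℤ) * D' := by rw [hAD]; exact_mod_cast NeZero.pos N
    exact pos_of_mul_pos_right h1 (by positivity)
  obtain ⟨D, hDD⟩ : ∃ D : ℕ, D' = (D : ℤ) := ⟨D'.toNat, by omega⟩
  have hD : D ≠ 0 := by omega
  set B : ℤ := u * (N * b) + v * d with hB
  refine ⟨A, D, B, hA, hD, ?_, ?_, fun z ↦ ?_⟩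
  · rw [hDD] at hAD; exact_mod_cast hAD
  · rw [gamma0_mem_iff_dvd]
    constructor
    · intro h
      exact_mod_cast Int.gcd_eq_left (by positivity) h
    · intro h
      rw [← hc, hc', h]; exact dvd_mul_right _ _
  set δ : SL(2, ℤ) := ⟨!![n' * a, -v; c', u], by
    rw [Matrix.det_fin_two_of]; linear_combination huv⟩ with hδ
  set w := affPt A D B hA hD z with hw
  have e1 : n' * a * B + (-v) * D' = N * b := by
    rw [hB, hD']; linear_combination (N * b : ℤ) * huv
  have e2 : c' * B + u * D' = d := by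
    rw [hB, hD']; linear_combination d * huv
  have e1' : ((n' : ℂ) * a * B + (-(v : ℂ)) * D) = N * b := by
    rw [hDD] at e1; exact_mod_cast e1
  have e2' : ((c' : ℂ) * B + u * D) = d := by
    rw [hDD] at e2; exact_mod_cast e2
  have hn'' : (N : ℂ) = A * n' := by exact_mod_cast hn'
  have hc'' : (c : ℂ) = A * c' := by exact_mod_cast hc'
  have hD0 : (D : ℂ) ≠ 0 := by exact_mod_cast hD
  have hjw : jac δ w = jac γ z / D := by
    have h1 : jac δ w = (c' : ℂ) * (w : ℂ) + u := by rw [jac_eq]; simp [hδ]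
    have h2 : jac γ z = (c : ℂ) * (z : ℂ) + d := by rw [jac_eq]
    rw [h1, h2, hw, coe_affPt, hc'', ← e2']
    field_simp
    ring
  have hpt : affPt N 1 0 (NeZero.ne N) one_ne_zero (γ • z) = δ • w := by
    apply UpperHalfPlane.ext
    rw [coe_affPt, coe_specialLinearGroup_apply, coe_specialLinearGroup_apply]
    have hne : ((c : ℂ) * z + d) ≠ 0 := by
      rw [hc, hd, ← jac_eq]; exact jac_ne_zero γ z
    have hne' : (c' : ℂ) * (w : ℂ) + u ≠ 0 := by
      have h := jac_ne_zero δ w; rw [jac_eq] at h; simpa [hδ] using h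
    simp only [hδ, Matrix.of_apply, Matrix.cons_val', Matrix.cons_val_zero, Matrix.cons_val_one,
      Matrix.empty_val', Matrix.cons_val_fin_one, algebraMap_int_eq, eq_intCast,
      Complex.ofReal_intCast, Int.cast_mul, Int.cast_neg, Complex.ofReal_mul, Complex.ofReal_neg,
      Nat.cast_one, div_one, Int.cast_zero, add_zero, ← ha, ← hb, ← hc, ← hd]
    rw [← mul_div_assoc, div_eq_div_iff hne hne', hw, coe_affPt, hn'', hc'']
    rw [hn''] at e1'
    field_simp
    linear_combination (c' * (A : ℂ) * z + c' * B + u * D) * (-e1') +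
      ((n' : ℂ) * a * A * z + n' * a * B - v * D) * e2'
  rw [deltaN, hpt, discriminant_smul, hjw]

omit [NeZero N] in
lemma discriminant_mem_niceAlg : discriminant ∈ niceAlg :=
  form_mem_niceAlg (F := CuspForm 𝒮ℒ 12) one_mem_periods_SL CuspForm.discriminant

omit [NeZero N] in
lemma discriminant_add_int (m : ℤ) (w w' : ℍ) (h : (w' : ℂ) = w + m) :
    discriminant w' = discriminant w := by
  have hp := (discriminant_mem_niceAlg.1.int_mul m) (w : ℂ)
  rw [mul_one, ← h] at hp
  simpa [ofComplex_apply] using hp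

/-- `Δ (N z)` has weight twelve on `Γ₀(N)`. -/
lemma hasWt_deltaN : HasWt (CongruenceSubgroup.Gamma0 N) 12 (deltaN N) := by
  intro γ hγ z
  obtain ⟨A, D, B, hA, hD, hAD, hiff, hG⟩ := deltaN_smul N γ
  obtain rfl := hiff.mp hγ
  obtain rfl : D = 1 := by
    exact mul_left_cancel₀ hA (by rw [hAD, mul_one])
  rw [hG z, deltaN, discriminant_add_int B (affPt A 1 0 hA one_ne_zero z) (affPt A 1 B hA hD z)
    (by simp [coe_affPt])]
  simp

/-- `Δ (N z)` is holomorphic. -/
lemma mdifferentiable_deltaN : MDiff (deltaN N) := by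
  have hΔ := UpperHalfPlane.mdifferentiable_iff.mp discriminant_mem_niceAlg.2.1
  rw [UpperHalfPlane.mdifferentiable_iff]
  have h : DifferentiableOn ℂ (fun w : ℂ ↦ (discriminant ∘ ofComplex) ((N : ℂ) * w))
      {w | 0 < w.im} := by
    refine hΔ.comp (differentiableOn_id.const_mul _) fun w hw ↦ ?_
    have : (0 : ℝ) < N := by exact_mod_cast NeZero.pos N
    simpa using mul_pos this hw
  refine h.congr fun w hw ↦ ?_
  have hw' : 0 < ((N : ℂ) * w).im := by
    have : (0 : ℝ) < N := by exact_mod_cast NeZero.pos N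
    simpa using mul_pos this hw
  simp only [Function.comp_apply, deltaN, ofComplex_apply_of_im_pos hw,
    ofComplex_apply_of_im_pos hw']
  congr 1
  apply UpperHalfPlane.ext
  simp [coe_affPt]

lemma isZeroAtImInfty_deltaN_slash (γ : SL(2, ℤ)) :
    IsZeroAtImInfty (deltaN N ∣[(12 : ℤ)] γ) := by
  obtain ⟨A, D, B, hA, hD, -, -, hG⟩ := deltaN_smul N γ
  have h : deltaN N ∣[(12 : ℤ)] γ =
      fun z ↦ ((D : ℂ) ^ (12 : ℤ))⁻¹ * discriminant (affPt A D B hA hD z) := by
    funext z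
    rw [slash_eq_jac, hG z, div_zpow, zpow_neg]
    have := jac_ne_zero γ z
    field_simp
  rw [h]
  have h0 : Tendsto (fun z ↦ discriminant (affPt A D B hA hD z)) atImInfty (𝓝 0) :=
    Tendsto.comp discriminant_isZeroAtImInfty (tendsto_affPt A D B hA hD)
  simpa [IsZeroAtImInfty, ZeroAtFilter] using h0.const_mul (((D : ℂ) ^ (12 : ℤ))⁻¹)

/-- `Δ (N z)` as a cusp form of level `Γ₀(N)`. -/
def deltaNForm : CuspForm (CongruenceSubgroup.Gamma0 N) 12 where
  toFun := deltaN N
  slash_action_eq' g hg := by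
    obtain ⟨γ, hγ, rfl⟩ := hg
    exact hasWt_iff.mp (hasWt_deltaN N) γ hγ
  holo' := mdifferentiable_deltaN N
  zero_at_cusps' hc := by
    rw [Subgroup.IsArithmetic.isCusp_iff_isCusp_SL2Z] at hc
    exact (OnePoint.isZeroAt_iff_forall_SL2Z hc).mpr fun γ _ ↦ isZeroAtImInfty_deltaN_slash N γ

@[simp] lemma coe_deltaNForm : (deltaNForm N : ℍ → ℂ) = deltaN N := rfl

/-- `Δ (N z)` is periodic, holomorphic and bounded at `i∞`. -/
lemma deltaN_mem_niceAlg : deltaN N ∈ niceAlg :=
  form_mem_niceAlg (CongruenceSubgroup.one_mem_strictPeriods_Gamma0 N) (deltaNForm N)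

/-- The conjugates of `Δ (N z)` outside `Γ₀(N)` differ from it. -/
lemma deltaN_slash_ne {γ : SL(2, ℤ)} (hγ : γ ∉ CongruenceSubgroup.Gamma0 N) :
    deltaN N ∣[(12 : ℤ)] γ ≠ deltaN N := by
  intro heq
  obtain ⟨A, D, B, hA, hD, hAD, hiff, hG⟩ := deltaN_smul N γ
  have hAN : A < N := by
    refine lt_of_le_of_ne (Nat.le_of_dvd (NeZero.pos N) ⟨D, hAD.symm⟩) fun h ↦ hγ (hiff.mpr h)
  have hfun : ∀ z, discriminant (affPt A D B hA hD z) = (D : ℂ) ^ (12 : ℤ) * deltaN N z := by
    intro z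
    conv_rhs => rw [← heq, slash_eq_jac, hG z, div_zpow, zpow_neg]
    have := jac_ne_zero γ z
    have hD' : (D : ℂ) ^ (12 : ℤ) ≠ 0 := zpow_ne_zero _ (by exact_mod_cast hD)
    field_simp
  have hdec : discriminant =O[atImInfty] fun τ : ℍ ↦ Real.exp (-2 * π * τ.im) := by
    simpa using CuspFormClass.exp_decay_atImInfty (h := 1) CuspForm.discriminant one_pos
      one_mem_periods_SL
  have h1 : (fun z : ℍ ↦ Real.exp (-2 * π * (A * z.im / D))) =O[atImInfty]
      fun z : ℍ ↦ discriminant (affPt A D B hA hD z) := by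
    have := exp_isBigO_discriminant.comp_tendsto (tendsto_affPt A D B hA hD)
    simpa [Function.comp_def, im_affPt] using this
  have h2 : (fun z : ℍ ↦ discriminant (affPt A D B hA hD z)) =O[atImInfty]
      fun z : ℍ ↦ Real.exp (-2 * π * (N * z.im)) := by
    simp only [hfun]
    refine Asymptotics.IsBigO.const_mul_left ?_ _
    have := hdec.comp_tendsto (tendsto_affPt N 1 0 (NeZero.ne N) one_ne_zero)
    unfold deltaN
    simpa [Function.comp_def, im_affPt] using this
  obtain ⟨C, hC⟩ := (h1.trans h2).bound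
  set r : ℝ := 2 * π * (N - A / D) with hr
  have hrpos : 0 < r := by
    have h3 : (A : ℝ) / D ≤ A :=
      div_le_self (Nat.cast_nonneg A) (by exact_mod_cast Nat.one_le_iff_ne_zero.mpr hD)
    have h4 : (A : ℝ) < N := by exact_mod_cast hAN
    have := Real.pi_pos
    have : (0 : ℝ) < N - A / D := by linarith
    positivity
  have hev : ∀ᶠ z in atImInfty, Real.exp (r * z.im) ≤ C := by
    filter_upwards [hC] with z hz
    rw [Real.norm_of_nonneg (Real.exp_pos _).le, Real.norm_of_nonneg (Real.exp_pos _).le] at hz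
    have he : Real.exp (r * z.im) * Real.exp (-2 * π * (N * z.im)) =
        Real.exp (-2 * π * (A * z.im / D)) := by
      rw [← Real.exp_add, hr]; congr 1; ring
    exact le_of_mul_le_mul_right (he.le.trans hz) (Real.exp_pos _)
  have htend : Tendsto (fun z : ℍ ↦ Real.exp (r * z.im)) atImInfty atTop :=
    Real.tendsto_exp_atTop.comp ((tendsto_id.const_mul_atTop hrpos).comp tendsto_comap)
  obtain ⟨z, hz1, hz2⟩ := (hev.and (htend.eventually_gt_atTop C)).exists
  exact absurd hz1 (not_le.mpr hz2)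

/-- `1728 Δ (N z)` has an integral `q`-expansion. -/
lemma qExpansion_deltaN_eq :
    ∃ p : PowerSeries ℤ, qExpansion 1 (deltaN N) = (1 / 1728 : ℂ) • intMap p := by
  obtain ⟨d, hd, hdz⟩ := exists_delta_int
  obtain ⟨p, hp⟩ := hd
  have hNpos : 0 < N := NeZero.pos N
  refine ⟨PowerSeries.mk fun n ↦ if N ∣ n then PowerSeries.coeff (n / N) p else 0, ?_⟩
  ext n
  have hnice := deltaN_mem_niceAlg N
  set c : ℕ → ℂ := fun n ↦
    if N ∣ n then (1 / 1728 : ℂ) * (qExpansion 1 d).coeff (n / N) else 0 with hc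
  have hsum : ∀ τ : ℍ, HasSum (fun m ↦ c m • Function.Periodic.qParam 1 τ ^ m) (deltaN N τ) := by
    intro τ
    set τ' := affPt N 1 0 (NeZero.ne N) one_ne_zero τ
    have hs := (UpperHalfPlane.hasSum_qExpansion one_pos (f := (d : ℍ → ℂ))
      (by simpa using (form_mem_niceAlg one_mem_periods_SL d).1)
      (form_mem_niceAlg one_mem_periods_SL d).2.1
      (form_mem_niceAlg one_mem_periods_SL d).2.2 τ').mul_left
      (1 / 1728 : ℂ)
    rw [show (1 / 1728 : ℂ) * d τ' = deltaN N τ by rw [hdz, deltaN]; ring] at hs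
    have hq : Function.Periodic.qParam 1 (τ' : ℂ) = Function.Periodic.qParam 1 (τ : ℂ) ^ N := by
      simp only [Function.Periodic.qParam, ← Complex.exp_nat_mul, τ', coe_affPt]
      congr 1
      push_cast
      ring
    simp_rw [hq, ← pow_mul] at hs
    have hinj : Function.Injective (fun m : ℕ ↦ N * m) := mul_right_injective₀ hNpos.ne'
    refine (hinj.hasSum_iff ?_).mp ?_
    · intro x hx
      have : ¬ N ∣ x := fun ⟨m, hm⟩ ↦ hx ⟨m, hm.symm⟩
      simp [hc, this]
    · refine hs.congr_fun fun m ↦ ?_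
      simp [hc, Nat.mul_div_cancel_left _ hNpos, mul_assoc]
  rw [← coe_deltaNForm, ← ModularFormClass.qExpansion_coeff_unique (f := deltaNForm N) one_pos
    (CongruenceSubgroup.one_mem_strictPeriods_Gamma0 N) hsum n]
  simp only [hc, PowerSeries.coeff_smul, coeff_intMap, PowerSeries.coeff_mk, smul_eq_mul, ← hp]
  split_ifs <;> simp

end Fermat.Agent.CuspIntStr
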