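import Mathlib.Algebra.MvPolynomial.Funext
import Mathlib.Analysis.Complex.Polynomial.Basic
import Mathlib.FieldTheory.Galois.Infinite
import Mathlib.FieldTheory.IsAlgClosed.Classification
import Mathlib.RingTheory.AlgebraicIndependent.Basic

/-!
# The fixed field of the automorphism group of `ℂ` is `ℚ`

A complex number fixed by every field automorphism of `ℂ` is rational.
-/

set_option autoImplicit false

noncomputable section

namespace Fermat.Agent.CuspIntStr

open MvPolynomial

/-- Translation automorphism of a polynomial algebra. -/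
def translateEquiv {ι : Type*} (t : ι → ℚ) : MvPolynomial ι ℚ ≃ₐ[ℚ] MvPolynomial ι ℚ :=
  AlgEquiv.ofAlgHom (aeval fun i ↦ X i + C (t i)) (aeval fun i ↦ X i - C (t i))
    (by ext i; simp) (by ext i; simp)

lemma eval_translateEquiv {ι : Type*} (t a : ι → ℚ) (p : MvPolynomial ι ℚ) :
    eval a (translateEquiv t p) = eval (fun i ↦ a i + t i) p := by
  have h : (aeval (R := ℚ) a).comp (aeval fun i ↦ X i + C (t i)) =
      aeval (R := ℚ) (fun i ↦ a i + t i) := by
    ext i; simp
  have h' := congrArg (fun φ : MvPolynomial ι ℚ →ₐ[ℚ] ℚ ↦ φ p) h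
  simpa [translateEquiv, aeval_eq_eval] using h'

/-- A complex number fixed by all automorphisms of `ℂ` is rational. -/
theorem mem_range_rat_of_forall_fixed (x : ℂ) (hx : ∀ σ : ℂ ≃+* ℂ, σ x = x) :
    ∃ r : ℚ, x = (r : ℂ) := by
  obtain ⟨s, hs⟩ := exists_isTranscendenceBasis ℚ ℂ
  set v : s → ℂ := Subtype.val
  -- first, `x` lies in `ℚ(s)`
  have halg : Algebra.IsAlgebraic (IntermediateField.adjoin ℚ (Set.range v)) ℂ :=
    hs.isAlgebraic_field
  have : IsAlgClosure (IntermediateField.adjoin ℚ (Set.range v)) ℂ :=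
    ⟨inferInstance, halg⟩
  have hxK : x ∈ (⊥ : IntermediateField (IntermediateField.adjoin ℚ (Set.range v)) ℂ) :=
    (InfiniteGalois.mem_bot_iff_fixed x).mpr fun φ ↦ hx φ.toRingEquiv
  obtain ⟨⟨y, hy⟩, rfl⟩ := IntermediateField.mem_bot.mp hxK
  obtain ⟨p, q, hpq⟩ := (IntermediateField.mem_adjoin_range_iff ℚ v y).mp hy
  change ∃ r : ℚ, y = (r : ℂ)
  by_cases hq : q = 0
  · exact ⟨0, by simp [hpq, hq]⟩
  -- invariance of `p / q` under all translations
  have hinj : Function.Injective (aeval v : MvPolynomial s ℚ →ₐ[ℚ] ℂ) := hs.1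
  have hkey : ∀ t : s → ℚ, translateEquiv t p * q = p * translateEquiv t q := by
    intro t
    have := IsAlgClosed.isAlgClosure_of_transcendence_basis v hs
    set e : Algebra.adjoin ℚ (Set.range v) ≃+* Algebra.adjoin ℚ (Set.range v) :=
      ((hs.1.aevalEquiv.symm.trans (translateEquiv t)).trans hs.1.aevalEquiv).toRingEquiv with he
    set σ : ℂ ≃+* ℂ := IsAlgClosure.equivOfEquiv ℂ ℂ e
    have hσ : ∀ r : MvPolynomial s ℚ, σ (aeval v r) = aeval v (translateEquiv t r) := by
      intro r
      have h1 := IsAlgClosure.equivOfEquiv_algebraMap ℂ ℂ e (hs.1.aevalEquiv r)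
      simpa [σ, he] using h1
    have hqne : aeval v q ≠ 0 := fun h ↦ hq (hinj (by rw [h, map_zero]))
    have h2 := hx σ
    change σ y = y at h2
    rw [hpq, map_div₀, hσ, hσ] at h2
    have hqne' : aeval v (translateEquiv t q) ≠ 0 := by
      rw [← hσ]; exact (map_ne_zero σ).mpr hqne
    rw [div_eq_div_iff hqne' hqne] at h2
    apply hinj
    simpa using h2
  obtain ⟨a, ha⟩ : ∃ a : s → ℚ, eval a q ≠ 0 := by
    by_contra h
    push Not at h
    exact hq (MvPolynomial.funext fun a ↦ by simp [h a])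
  refine ⟨eval a p / eval a q, ?_⟩
  have hmul : C (eval a q) * p = C (eval a p) * q := by
    refine MvPolynomial.funext fun b ↦ ?_
    have h := congrArg (eval a) (hkey fun i ↦ b i - a i)
    simp only [map_mul, eval_translateEquiv, add_sub_cancel] at h
    simp only [map_mul, eval_C]
    change eval b p * eval a q = eval a p * eval b q at h
    linear_combination h
  have hqne : aeval v q ≠ 0 := fun h ↦ hq (hinj (by rw [h, map_zero]))
  have hqa : ((eval a q : ℚ) : ℂ) ≠ 0 := by exact_mod_cast ha
  have h3 := congrArg (aeval (R := ℚ) v) hmul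
  simp only [map_mul, aeval_C, eq_ratCast] at h3
  rw [hpq, Rat.cast_div, div_eq_div_iff hqne hqa]
  linear_combination h3

end Fermat.Agent.CuspIntStr
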