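import Mathlib.Analysis.Complex.Basic
import Mathlib.RingTheory.Polynomial.RationalRoot
import Mathlib.RingTheory.PowerSeries.Ideal

/-!
# Power series spanned by integral ones

A `ℂ`-combination of integral series has bounded denominators after applying a `ℚ`-linear
functional.  With the normality of `ℤ⟦X⟧` this scales a rational series which is integral over
the integral series to an integral one.
-/

set_option autoImplicit false

noncomputable section

namespace Fermat.Agent.CuspIntStr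

open PowerSeries

/-- `ℤ⟦X⟧ → ℂ⟦X⟧`. -/
def intMap : PowerSeries ℤ →+* PowerSeries ℂ := PowerSeries.map (Int.castRingHom ℂ)

/-- The coefficients of an integral series in `ℂ⟦X⟧`. -/
@[simp] lemma coeff_intMap (p : PowerSeries ℤ) (n : ℕ) :
    coeff n (intMap p) = ((coeff n p : ℤ) : ℂ) := by simp [intMap]

/-- A series is integral iff all its coefficients are integers. -/
lemma mem_range_intMap_iff (x : PowerSeries ℂ) :
    x ∈ Set.range intMap ↔ ∀ n, ∃ m : ℤ, coeff n x = (m : ℂ) := by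
  constructor
  · rintro ⟨p, rfl⟩ n; exact ⟨_, coeff_intMap p n⟩
  · intro h
    choose m hm using h
    exact ⟨PowerSeries.mk m, by ext n; simp [hm]⟩

/-- The `ℂ`-subalgebra of `ℂ⟦X⟧` spanned by the integral series. -/
def intAlg : Subalgebra ℂ (PowerSeries ℂ) := Algebra.adjoin ℂ (Set.range intMap)

/-- Integral series lie in their `ℂ`-algebra. -/
lemma intMap_mem_intAlg (p : PowerSeries ℤ) : intMap p ∈ intAlg :=
  Algebra.subset_adjoin ⟨p, rfl⟩

lemma mem_span_of_mem_intAlg {x : PowerSeries ℂ} (hx : x ∈ intAlg) :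
    x ∈ Submodule.span ℂ (Set.range intMap) := by
  have h : ((Submonoid.closure (Set.range intMap) : Submonoid (PowerSeries ℂ)) : Set (PowerSeries ℂ))
      = Set.range intMap := by
    have : Submonoid.closure (Set.range intMap) = MonoidHom.mrange intMap.toMonoidHom := by
      rw [show Set.range intMap = (MonoidHom.mrange intMap.toMonoidHom : Set (PowerSeries ℂ)) from
        rfl, Submonoid.closure_eq]
    rw [this]; rfl
  rw [← h, ← Algebra.adjoin_eq_span]
  exact hx

/-- A `ℚ`-linear functional applied coefficientwise. -/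
def proj (π : ℂ →ₗ[ℚ] ℚ) (x : PowerSeries ℂ) : PowerSeries ℚ :=
  PowerSeries.mk fun n ↦ π (coeff n x)

/-- Applying a `ℚ`-linear functional to a combination of integral series gives bounded
denominators. -/
lemma exists_bounded_denom {x : PowerSeries ℂ} (hx : x ∈ intAlg) (π : ℂ →ₗ[ℚ] ℚ) :
    ∃ (D : ℕ) (p : PowerSeries ℤ), D ≠ 0 ∧
      ∀ n, (D : ℚ) * π (coeff n x) = (coeff n p : ℤ) := by
  have hx' := mem_span_of_mem_intAlg hx
  clear hx
  induction hx' using Submodule.span_induction generalizing π with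
  | mem x hx =>
    obtain ⟨p, rfl⟩ := hx
    refine ⟨(π 1).den, PowerSeries.C (π 1).num * p, (π 1).den_ne_zero, fun n ↦ ?_⟩
    have h1 : π (coeff n (intMap p)) = ((coeff n p : ℤ) : ℚ) * π 1 := by
      rw [coeff_intMap, show (((coeff n p : ℤ) : ℂ)) = ((coeff n p : ℤ) : ℚ) • (1 : ℂ) by
        rw [Rat.smul_def, mul_one, Rat.cast_intCast], map_smul, smul_eq_mul]
    rw [h1, coeff_C_mul]
    push_cast
    linear_combination ((coeff n p : ℤ) : ℚ) * Rat.den_mul_eq_num (π 1)
  | zero => exact ⟨1, 0, one_ne_zero, fun n ↦ by simp⟩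
  | add x y hx' hy' ihx ihy =>
    obtain ⟨D, p, hD, hp⟩ := ihx π
    obtain ⟨E, q, hE, hq⟩ := ihy π
    refine ⟨D * E, PowerSeries.C (E : ℤ) * p + PowerSeries.C (D : ℤ) * q,
      mul_ne_zero hD hE, fun n ↦ ?_⟩
    simp only [map_add, coeff_C_mul, Int.cast_add, Int.cast_mul, Int.cast_natCast, Nat.cast_mul]
    linear_combination (E : ℚ) * hp n + (D : ℚ) * hq n
  | smul c x hx' ih =>
    obtain ⟨D, p, hD, hp⟩ := ih (π.comp (LinearMap.mulLeft ℚ c))
    exact ⟨D, p, hD, fun n ↦ by simpa using hp n⟩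

/-- `ℤ⟦X⟧ → ℚ⟦X⟧`. -/
def ratMap : PowerSeries ℤ →+* PowerSeries ℚ := PowerSeries.map (Int.castRingHom ℚ)

lemma ratMap_injective : Function.Injective ratMap :=
  PowerSeries.map_injective _ Int.cast_injective

/-- Normality of `ℤ⟦X⟧`. -/
lemma mem_range_ratMap_of_integral {y : PowerSeries ℚ} {H R : PowerSeries ℤ} (hH : H ≠ 0)
    (hy : y * ratMap H = ratMap R) {n : ℕ} (c : ℕ → PowerSeries ℤ)
    (hrel : y ^ n + ∑ j ∈ Finset.range n, ratMap (c j) * y ^ j = 0) :
    ∃ Y, ratMap Y = y := by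
  set L := FractionRing (PowerSeries ℚ)
  set K := FractionRing (PowerSeries ℤ)
  set φ : PowerSeries ℤ →+* L := (algebraMap (PowerSeries ℚ) L).comp ratMap with hφ
  have hφinj : Function.Injective φ :=
    (IsFractionRing.injective (PowerSeries ℚ) L).comp ratMap_injective
  set ψ : K →+* L := IsFractionRing.lift hφinj
  have hψ : ∀ p, ψ (algebraMap _ K p) = φ p := IsFractionRing.lift_algebraMap hφinj
  set F : K := algebraMap _ K R / algebraMap _ K H
  have hψF : ψ F = algebraMap _ L y := by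
    have : φ H ≠ 0 := (map_ne_zero_iff _ hφinj).mpr hH
    rw [map_div₀, hψ, hψ, div_eq_iff this, hφ, RingHom.comp_apply, RingHom.comp_apply, ← map_mul,
      hy]
  have hint : IsIntegral (PowerSeries ℤ) F := by
    refine ⟨Polynomial.X ^ n + ∑ j ∈ Finset.range n, Polynomial.C (c j) * Polynomial.X ^ j,
      Polynomial.monic_X_pow_add ?_, ?_⟩
    · refine lt_of_le_of_lt (Polynomial.degree_sum_le _ _) ?_
      refine (Finset.sup_lt_iff (WithBot.bot_lt_coe n)).mpr fun j hj ↦ ?_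
      exact lt_of_le_of_lt (Polynomial.degree_C_mul_X_pow_le _ _)
        (WithBot.coe_lt_coe.mpr (Finset.mem_range.mp hj))
    · apply ψ.injective
      simp only [Polynomial.eval₂_add, Polynomial.eval₂_finsetSum, Polynomial.eval₂_mul,
        Polynomial.eval₂_C, Polynomial.eval₂_X_pow, map_add, map_sum, map_mul, map_pow, hψ, hψF,
        hφ, RingHom.comp_apply, map_zero]
      simpa [map_sum] using congrArg (algebraMap (PowerSeries ℚ) L) hrel
  obtain ⟨Y, hY⟩ := IsIntegrallyClosed.algebraMap_eq_of_integral hint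
  refine ⟨Y, IsFractionRing.injective (PowerSeries ℚ) L ?_⟩
  rw [← hψF, ← hY, hψ]; rfl

/-- A series with rational coefficients which is integral over the integral series and lies in
their fraction field has bounded denominators. -/
lemma exists_scale_of_monic_relation {x : PowerSeries ℂ}
    (hrat : ∀ n, ∃ r : ℚ, coeff n x = (r : ℂ)) {h r : PowerSeries ℂ} (hh : h ∈ intAlg)
    (hh0 : h ≠ 0) (hr : r ∈ intAlg) (hxh : x * h = r) {n : ℕ} (a : ℕ → PowerSeries ℂ)
    (ha : ∀ j, a j ∈ intAlg) (hrel : x ^ n + ∑ j ∈ Finset.range n, a j * x ^ j = 0) :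
    ∃ D : ℕ, D ≠ 0 ∧ ∀ m, ∃ z : ℤ, (D : ℂ) * coeff m x = (z : ℂ) := by
  choose x₀ hx₀ using hrat
  set X₀ : PowerSeries ℚ := PowerSeries.mk x₀ with hX₀
  set ι : PowerSeries ℚ →+* PowerSeries ℂ := PowerSeries.map (algebraMap ℚ ℂ) with hι
  have hιx : ι X₀ = x := by ext m; simp [hι, hX₀, hx₀]
  have hproj : ∀ (π : ℂ →ₗ[ℚ] ℚ) (y : PowerSeries ℂ) (z : PowerSeries ℚ),
      proj π (y * ι z) = proj π y * z := by
    intro π y z
    ext m
    simp only [proj, coeff_mk, coeff_mul, map_sum]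
    refine Finset.sum_congr rfl fun ij _ ↦ ?_
    rw [show coeff ij.1 y * coeff ij.2 (ι z) = (coeff ij.2 z) • coeff ij.1 y by
      simp [hι, Rat.smul_def, mul_comm], map_smul, smul_eq_mul, mul_comm]
  have hnat : ∀ (D : ℕ) (m : ℕ) (z : PowerSeries ℚ),
      coeff m ((D : PowerSeries ℚ) * z) = D * coeff m z := by
    intro D m z; rw [← map_natCast (PowerSeries.C (R := ℚ)), coeff_C_mul]
  have hbd : ∀ {y : PowerSeries ℂ}, y ∈ intAlg → ∀ π : ℂ →ₗ[ℚ] ℚ,
      ∃ (D : ℕ) (p : PowerSeries ℤ), D ≠ 0 ∧ (D : PowerSeries ℚ) * proj π y = ratMap p := by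
    intro y hy π
    obtain ⟨D, p, hD, hp⟩ := exists_bounded_denom hy π
    exact ⟨D, p, hD, by ext m; simpa [hnat, proj, ratMap] using hp m⟩
  -- fraction
  obtain ⟨π₁, hπ₁⟩ : ∃ π : ℂ →ₗ[ℚ] ℚ, proj π h ≠ 0 := by
    obtain ⟨m, hm⟩ : ∃ m, coeff m h ≠ 0 := by
      by_contra hc; push Not at hc; exact hh0 (PowerSeries.ext fun m ↦ by simp [hc m])
    have hb := mt (Module.Free.chooseBasis ℚ ℂ).forall_coord_eq_zero_iff.mp hm
    push Not at hb
    obtain ⟨i, hi⟩ := hb
    refine ⟨(Module.Free.chooseBasis ℚ ℂ).coord i, fun hc ↦ hi ?_⟩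
    simpa [proj] using congrArg (coeff m) hc
  obtain ⟨D₁, H, hD₁, hH⟩ := hbd hh π₁
  obtain ⟨D₂, R, hD₂, hR⟩ := hbd hr π₁
  have hxH : proj π₁ h * X₀ = proj π₁ r := by
    rw [← hxh, ← hιx, mul_comm (ι X₀) h, hproj]
  have hcast : ∀ {D : ℕ}, D ≠ 0 → (D : PowerSeries ℚ) ≠ 0 := by
    intro D hD hc
    have := congrArg (coeff 0) hc
    rw [← mul_one (D : PowerSeries ℚ), hnat] at this
    exact hD (by simpa using this)
  -- monic relation
  obtain ⟨π₀, hπ₀⟩ : ∃ f : ℂ →ₗ[ℚ] ℚ, f 1 = 1 := by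
    obtain ⟨f, hf⟩ := LinearMap.exists_leftInverse_of_injective
      (Algebra.linearMap ℚ ℂ) (LinearMap.ker_eq_bot.mpr (algebraMap ℚ ℂ).injective)
    exact ⟨f, by simpa using LinearMap.congr_fun hf 1⟩
  choose DA A hDA hA using fun j ↦ hbd (ha j) π₀
  set D : ℕ := ∏ j ∈ Finset.range n, DA j with hD
  have hD0 : D ≠ 0 := Finset.prod_ne_zero_iff.mpr fun j _ ↦ hDA j
  have hadd : ∀ y z : PowerSeries ℂ, proj π₀ (y + z) = proj π₀ y + proj π₀ z := by
    intro y z; ext m; simp [proj]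
  have hrelQ : X₀ ^ n + ∑ j ∈ Finset.range n, proj π₀ (a j) * X₀ ^ j = 0 := by
    have hone : proj π₀ 1 = 1 := by
      ext m; by_cases hm : m = 0 <;> simp [proj, coeff_one, hm, hπ₀]
    have : ∀ s : Finset ℕ, proj π₀ (∑ j ∈ s, a j * x ^ j) =
        ∑ j ∈ s, proj π₀ (a j) * X₀ ^ j := by
      intro s
      induction s using Finset.induction with
      | empty => ext m; simp [proj]
      | insert i s his ih =>
        rw [Finset.sum_insert his, Finset.sum_insert his, hadd, ih, ← hιx, ← map_pow, hproj]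
    have h2 := congrArg (proj π₀) hrel
    rw [hadd, this, ← one_mul (x ^ n), ← hιx, ← map_pow, hproj, hone, one_mul] at h2
    rw [h2]; ext m; simp [proj]
  have hne : (D₂ : PowerSeries ℤ) * H ≠ 0 := by
    refine fun hc ↦ hπ₁ ?_
    have h1 : (D₂ : PowerSeries ℚ) * ((D₁ : PowerSeries ℚ) * proj π₁ h) = 0 := by
      simpa [hH] using congrArg ratMap hc
    exact ((mul_eq_zero.mp ((mul_eq_zero.mp h1).resolve_left (hcast hD₂))).resolve_left
      (hcast hD₁))
  have hfrac : (D : PowerSeries ℚ) * X₀ * ratMap ((D₂ : PowerSeries ℤ) * H) =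
      ratMap ((D : PowerSeries ℤ) * D₁ * R) := by
    rw [map_mul, map_mul, map_mul, map_natCast, map_natCast, map_natCast, ← hH, ← hR, ← hxH]
    ring
  set c : ℕ → PowerSeries ℤ :=
    fun j ↦ (D : PowerSeries ℤ) ^ (n - j - 1) * ((D / DA j : ℕ) : PowerSeries ℤ) * A j with hc
  have hrelZ : ((D : PowerSeries ℚ) * X₀) ^ n +
      ∑ j ∈ Finset.range n, ratMap (c j) * ((D : PowerSeries ℚ) * X₀) ^ j = 0 := by
    simp only [hc]
    have : (D : PowerSeries ℚ) ^ n *
        (X₀ ^ n + ∑ j ∈ Finset.range n, proj π₀ (a j) * X₀ ^ j) = 0 := by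
      rw [hrelQ, mul_zero]
    rw [← this, mul_add, mul_pow, Finset.mul_sum]
    congr 1
    refine Finset.sum_congr rfl fun j hj ↦ ?_
    have hdvd : DA j ∣ D := Finset.dvd_prod_of_mem DA hj
    rw [map_mul, map_mul, map_pow, map_natCast, map_natCast, ← hA j]
    have hDj : ((D / DA j : ℕ) : PowerSeries ℚ) * (DA j : PowerSeries ℚ) = (D : PowerSeries ℚ) := by
      rw [← Nat.cast_mul, Nat.div_mul_cancel hdvd]
    obtain ⟨i, rfl⟩ : ∃ i, n = j + (i + 1) := ⟨n - j - 1, by
      have := Finset.mem_range.mp hj; omega⟩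
    rw [show j + (i + 1) - j - 1 = i by omega]
    linear_combination ((D : PowerSeries ℚ) ^ (i + j) * X₀ ^ j * proj π₀ (a j)) * hDj

  obtain ⟨Y, hY⟩ := mem_range_ratMap_of_integral hne hfrac c hrelZ
  refine ⟨D, hD0, fun m ↦ ⟨coeff m Y, ?_⟩⟩
  have := congrArg (fun z : PowerSeries ℚ ↦ ((coeff m z : ℚ) : ℂ)) hY
  simpa [ratMap, hnat, hX₀, hx₀] using this.symm

end Fermat.Agent.CuspIntStr
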