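import Mathlib.NumberTheory.ModularForms.QExpansion
import Fermat.Agent.CuspIntStr.IntSpan

/-!
# The algebra of periodic functions bounded at `i∞`

`niceAlg` is the algebra of holomorphic functions on the upper half plane of period `1` bounded at
`i∞`; `qHom` sends such a function to its `q`-expansion and is injective.
-/

set_option autoImplicit false

noncomputable section

namespace Fermat.Agent.CuspIntStr

open UpperHalfPlane ModularForm Filter
open scoped Manifold MatrixGroups ModularForm Topology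

/-- Periodic of period `1`, holomorphic, bounded at `i∞`. -/
def niceAlg : Subalgebra ℂ (ℍ → ℂ) where
  carrier := {f | Function.Periodic (f ∘ ofComplex) 1 ∧ MDiff f ∧ IsBoundedAtImInfty f}
  mul_mem' {f g} hf hg := ⟨fun w ↦ by
      have h1 := hf.1 w; have h2 := hg.1 w
      simp only [Function.comp_apply, Pi.mul_apply] at h1 h2 ⊢
      rw [h1, h2],
    hf.2.1.mul hg.2.1, by
      have := hf.2.2.mul hg.2.2
      simpa [IsBoundedAtImInfty, BoundedAtFilter] using! this⟩
  add_mem' {f g} hf hg := ⟨fun w ↦ by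
      have h1 := hf.1 w; have h2 := hg.1 w
      simp only [Function.comp_apply, Pi.add_apply] at h1 h2 ⊢
      rw [h1, h2],
    hf.2.1.add hg.2.1, hf.2.2.add hg.2.2⟩
  algebraMap_mem' c := ⟨fun w ↦ rfl, mdifferentiable_const, const_boundedAtFilter _ c⟩

/-- The cusp function of a nice function is analytic at `0`. -/
lemma analyticAt_cuspFunction (f : niceAlg) :
    AnalyticAt ℂ (cuspFunction 1 (f : ℍ → ℂ)) 0 :=
  analyticAt_cuspFunction_zero one_pos (by simpa using f.2.1) f.2.2.1 f.2.2.2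

/-- The `q`-expansion as an algebra homomorphism. -/
def qHom : niceAlg →ₐ[ℂ] PowerSeries ℂ :=
  AlgHom.ofLinearMap
    { toFun := fun f ↦ qExpansion 1 (f : ℍ → ℂ)
      map_add' := fun f g ↦ qExpansion_add (analyticAt_cuspFunction f) (analyticAt_cuspFunction g)
      map_smul' := fun c f ↦ qExpansion_smul (analyticAt_cuspFunction f) c }
    (qExpansion_one 1)
    fun f g ↦ qExpansion_mul (analyticAt_cuspFunction f) (analyticAt_cuspFunction g)

/-- `qHom` is the `q`-expansion of period `1`. -/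
@[simp] lemma qHom_apply (f : niceAlg) : qHom f = qExpansion 1 (f : ℍ → ℂ) := rfl

/-- A nice function is determined by its `q`-expansion. -/
lemma qHom_injective : Function.Injective qHom := by
  rw [injective_iff_map_eq_zero]
  intro f hf
  apply Subtype.ext
  exact (qExpansion_eq_zero_iff one_pos (by simpa using f.2.1) f.2.2.1 f.2.2.2).mp hf

/-- A modular form of period `1` is nice. -/
lemma form_mem_niceAlg {Γ : Subgroup (GL (Fin 2) ℝ)} {k : ℤ} {F : Type*} [FunLike F ℍ ℂ]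
    [ModularFormClass F Γ k] (h1 : (1 : ℝ) ∈ Γ.strictPeriods) (f : F) :
    (f : ℍ → ℂ) ∈ niceAlg := by
  have : Fact (IsCusp OnePoint.infty Γ) := ⟨Γ.isCusp_of_mem_strictPeriods one_pos h1⟩
  exact ⟨by simpa using SlashInvariantFormClass.periodic_comp_ofComplex f h1,
    ModularFormClass.holo f, ModularFormClass.bdd_at_infty f⟩

/-- The automorphy factor of `γ ∈ SL(2, ℤ)`. -/
def jac (γ : SL(2, ℤ)) (z : ℍ) : ℂ := denom (γ : GL (Fin 2) ℝ) z

/-- The automorphy factor does not vanish. -/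
lemma jac_ne_zero (γ : SL(2, ℤ)) (z : ℍ) : jac γ z ≠ 0 := denom_ne_zero _ z

/-- `f` has weight `w` for `Γ`. -/
def HasWt (Γ : Subgroup SL(2, ℤ)) (w : ℤ) (f : ℍ → ℂ) : Prop :=
  ∀ γ ∈ Γ, ∀ z : ℍ, f (γ • z) = jac γ z ^ w * f z

/-- The weight `w` action in terms of the automorphy factor. -/
lemma slash_eq_jac (f : ℍ → ℂ) (w : ℤ) (γ : SL(2, ℤ)) (z : ℍ) :
    (f ∣[w] γ) z = f (γ • z) * jac γ z ^ (-w) := by rw [SL_slash_apply]; rfl

/-- Invariance under the weight `w` action as a transformation law. -/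
lemma slash_eq_self_iff (f : ℍ → ℂ) (w : ℤ) (γ : SL(2, ℤ)) :
    f ∣[w] γ = f ↔ ∀ z : ℍ, f (γ • z) = jac γ z ^ w * f z := by
  rw [funext_iff]
  refine forall_congr' fun z ↦ ?_
  rw [slash_eq_jac, zpow_neg, mul_inv_eq_iff_eq_mul₀ (zpow_ne_zero _ (jac_ne_zero γ z)), mul_comm]

/-- Having weight `w` is invariance under the weight `w` action. -/
lemma hasWt_iff {Γ : Subgroup SL(2, ℤ)} {w : ℤ} {f : ℍ → ℂ} :
    HasWt Γ w f ↔ ∀ γ ∈ Γ, f ∣[w] γ = f :=
  forall₂_congr fun γ _ ↦ (slash_eq_self_iff f w γ).symm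

/-- Weights add under products. -/
lemma HasWt.mul {Γ : Subgroup SL(2, ℤ)} {v w : ℤ} {f g : ℍ → ℂ} (hf : HasWt Γ v f)
    (hg : HasWt Γ w g) : HasWt Γ (v + w) (f * g) := fun γ hγ z ↦ by
  simp only [Pi.mul_apply, hf γ hγ z, hg γ hγ z, zpow_add₀ (jac_ne_zero γ z)]; ring

/-- Weights multiply under powers. -/
lemma HasWt.pow {Γ : Subgroup SL(2, ℤ)} {w : ℤ} {f : ℍ → ℂ} (hf : HasWt Γ w f) (i : ℕ) :
    HasWt Γ (i * w) (f ^ i) := fun γ hγ z ↦ by
  rw [Pi.pow_apply, Pi.pow_apply, hf γ hγ z, mul_pow, ← zpow_natCast (jac γ z ^ w), ← zpow_mul,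
    mul_comm w]

/-- Weights are kept by scalar multiples. -/
lemma HasWt.smul {Γ : Subgroup SL(2, ℤ)} {w : ℤ} {f : ℍ → ℂ} (hf : HasWt Γ w f) (c : ℂ) :
    HasWt Γ w (c • f) := fun γ hγ z ↦ by
  simp only [Pi.smul_apply, smul_eq_mul, hf γ hγ z]; ring

/-- Weights are kept by sums. -/
lemma HasWt.sum {Γ : Subgroup SL(2, ℤ)} {w : ℤ} {ι : Type*} {s : Finset ι} {f : ι → ℍ → ℂ}
    (hf : ∀ i ∈ s, HasWt Γ w (f i)) : HasWt Γ w (∑ i ∈ s, f i) := fun γ hγ z ↦ by
  simp only [Finset.sum_apply, Finset.mul_sum]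
  exact Finset.sum_congr rfl fun i hi ↦ hf i hi γ hγ z

/-- A form of weight `w` has weight `w`. -/
lemma form_hasWt {Γ : Subgroup SL(2, ℤ)} {w : ℤ} {F : Type*} [FunLike F ℍ ℂ]
    [SlashInvariantFormClass F (Γ.map (Matrix.SpecialLinearGroup.mapGL ℝ)) w] (f : F) :
    HasWt Γ w f := hasWt_iff.mpr fun γ hγ ↦
  SlashInvariantFormClass.slash_action_eq f _ ⟨γ, hγ, rfl⟩

/-- Coefficientwise action of a field endomorphism. -/
def conjSeries (σ : ℂ ≃+* ℂ) : PowerSeries ℂ →+* PowerSeries ℂ :=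
  PowerSeries.map σ.toRingHom

/-- Integral series are fixed by every field automorphism of `ℂ`. -/
lemma conjSeries_intMap (σ : ℂ ≃+* ℂ) (p : PowerSeries ℤ) :
    conjSeries σ (intMap p) = intMap p := by
  ext n; simp [conjSeries]

end Fermat.Agent.CuspIntStr
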