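import Mathlib.NumberTheory.ModularForms.LevelOne.GradedRing
import Mathlib.NumberTheory.ModularForms.EisensteinSeries.QExpansion
import Fermat.Agent.CuspIntStr.Nice

/-!
# Integrality of level one modular forms

The forms of level one are spanned by those with integral `q`-expansion, so conjugating the
coefficients of a level one form by an automorphism of `ℂ` gives a level one form.
-/

set_option autoImplicit false

noncomputable section

namespace Fermat.Agent.CuspIntStr

open UpperHalfPlane ModularForm ModularFormClass EisensteinSeries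
open scoped MatrixGroups ModularForm

/-- Forms of level one with integral `q`-expansion. -/
def intForms (w : ℤ) : Set (ModularForm 𝒮ℒ w) :=
  {f | qExpansion 1 f ∈ Set.range intMap}

lemma mem_intForms {w : ℤ} {f : ModularForm 𝒮ℒ w} :
    f ∈ intForms w ↔ qExpansion 1 f ∈ Set.range intMap := Iff.rfl

/-- `1` is a period of the level one group. -/
lemma one_mem_periods_SL : (1 : ℝ) ∈ (𝒮ℒ : Subgroup (GL (Fin 2) ℝ)).strictPeriods :=
  one_mem_strictPeriods_SL

lemma qExpansion_E_mem_range {k : ℕ} (hk : 3 ≤ k) (hk2 : Even k) (c : ℤ)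
    (hc : -(2 * k / bernoulli k : ℂ) = (c : ℂ)) : qExpansion 1 (E hk) ∈ Set.range intMap := by
  rw [mem_range_intMap_iff]
  intro n
  rw [E_qExpansion_coeff hk hk2, hc]
  split_ifs
  · exact ⟨1, by simp⟩
  · exact ⟨c * (ArithmeticFunction.sigma (k - 1) n : ℕ), by push_cast; ring⟩

lemma E4_mem_range : qExpansion 1 E₄ ∈ Set.range intMap :=
  qExpansion_E_mem_range (by norm_num) ⟨2, rfl⟩ 240
    (by norm_num [show bernoulli 4 = -1 / 30 by decide +kernel])

lemma E6_mem_range : qExpansion 1 E₆ ∈ Set.range intMap :=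
  qExpansion_E_mem_range (by norm_num) ⟨3, rfl⟩ (-504)
    (by norm_num [show bernoulli 6 = 1 / 42 by decide +kernel])

lemma mul_mem_range {x y : PowerSeries ℂ} (hx : x ∈ Set.range intMap)
    (hy : y ∈ Set.range intMap) : x * y ∈ Set.range intMap := by
  obtain ⟨p, rfl⟩ := hx; obtain ⟨q, rfl⟩ := hy; exact ⟨p * q, map_mul _ _ _⟩

/-- An integral form with constant term one in every even weight `≥ 4`. -/
lemma exists_unit_form (a b : ℕ) :
    ∃ e : ModularForm 𝒮ℒ ((4 * a + 6 * b : ℕ) : ℤ),
      e ∈ intForms _ ∧ (qExpansion 1 e).coeff 0 = 1 := by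
  refine ⟨ModularForm.mcast (by push_cast; ring) ((E₄.pow a).mul (E₆.pow b)), ?_, ?_⟩
  · rw [mem_intForms]
    rw [ModularForm.qExpansion_mcast, ModularForm.qExpansion_mul one_pos one_mem_periods_SL,
      ModularForm.qExpansion_pow one_pos one_mem_periods_SL,
      ModularForm.qExpansion_pow one_pos one_mem_periods_SL]
    obtain ⟨p, hp⟩ := E4_mem_range
    obtain ⟨q, hq⟩ := E6_mem_range
    exact ⟨p ^ a * q ^ b, by rw [map_mul, map_pow, map_pow, hp, hq]⟩
  · rw [ModularForm.qExpansion_mcast, ModularForm.qExpansion_mul one_pos one_mem_periods_SL,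
      ModularForm.qExpansion_pow one_pos one_mem_periods_SL,
      ModularForm.qExpansion_pow one_pos one_mem_periods_SL,
      PowerSeries.coeff_zero_eq_constantCoeff_apply, map_mul, map_pow, map_pow,
      ← PowerSeries.coeff_zero_eq_constantCoeff_apply, ← PowerSeries.coeff_zero_eq_constantCoeff_apply]
    rw [E_qExpansion_coeff_zero _ ⟨2, rfl⟩, E_qExpansion_coeff_zero _ ⟨3, rfl⟩]
    simp

/-- `1728 Δ` is a level one form with integral `q`-expansion. -/
lemma exists_delta_int : ∃ d : ModularForm 𝒮ℒ (12 : ℤ), d ∈ intForms _ ∧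
    ∀ z : ℍ, d z = 1728 * discriminant z := by
  refine ⟨ModularForm.mcast (by norm_num) (E₄.pow 3) - ModularForm.mcast (by norm_num) (E₆.pow 2),
    ?_, fun z ↦ ?_⟩
  · rw [mem_intForms]
    simp only [FunLike.coe_sub, ModularForm.coe_mcast,
      ModularForm.qExpansion_sub one_pos one_mem_periods_SL,
      ModularForm.qExpansion_pow one_pos one_mem_periods_SL]
    obtain ⟨p, hp⟩ := E4_mem_range
    obtain ⟨q, hq⟩ := E6_mem_range
    exact ⟨p ^ 3 - q ^ 2, by rw [map_sub, map_pow, map_pow, hp, hq]⟩
  · rw [discriminant_eq_E₄_cube_sub_E₆_sq z]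
    simp only [_root_.sub_apply, ModularForm.coe_mcast, ModularForm.coe_pow, Pi.pow_apply]
    ring

/-- Level one forms are spanned by those with integral `q`-expansion. -/
theorem span_intForms (w : ℤ) : Submodule.span ℂ (intForms w) = ⊤ := by
  rcases lt_or_ge w 0 with hw | hw
  · refine top_unique fun f _ ↦ ?_
    rw [rank_zero_iff_forall_zero.mp (levelOne_neg_weight_rank_zero hw) f]
    exact zero_mem _
  lift w to ℕ using hw
  induction w using Nat.strong_induction_on with | h w ih =>
  refine top_unique fun f _ ↦ ?_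
  rcases Nat.even_or_odd w with hev | hodd
  swap
  · rw [levelOne_odd_weight_eq_zero (by exact_mod_cast hodd) f]
    exact zero_mem _
  obtain ⟨m, rfl⟩ := hev
  by_cases hm : m = 1
  · subst hm
    rw [rank_zero_iff_forall_zero.mp levelOne_weight_two_rank_zero f]
    exact zero_mem _
  obtain ⟨a, b, hab⟩ : ∃ a b : ℕ, m + m = 4 * a + 6 * b := by
    rcases Nat.even_or_odd m with ⟨t, ht⟩ | ⟨t, ht⟩
    · exact ⟨t, 0, by omega⟩
    · exact ⟨t - 1, 1, by omega⟩
  obtain ⟨e₀, he₀, he₁⟩ := exists_unit_form a b
  set e : ModularForm 𝒮ℒ ((m + m : ℕ) : ℤ) := ModularForm.mcast (by rw [hab]) e₀ with he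
  have heint : e ∈ intForms _ := by
    rw [mem_intForms]
    rw [he, ModularForm.qExpansion_mcast]; exact he₀
  set c := (qExpansion 1 f).coeff 0
  set f' := f - c • e with hf'
  have hf0 : (qExpansion 1 f').coeff 0 = 0 := by
    rw [hf', FunLike.coe_sub, ModularForm.qExpansion_sub one_pos one_mem_periods_SL,
      FunLike.coe_smul, ModularForm.qExpansion_smul one_pos one_mem_periods_SL, map_sub,
      PowerSeries.coeff_smul, he, ModularForm.qExpansion_mcast, he₁, smul_eq_mul, mul_one, sub_self]
  have hff : f = f' + c • e := by rw [hf', sub_add_cancel]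
  rw [hff]
  refine add_mem ?_ (Submodule.smul_mem _ c (Submodule.subset_span heint))
  set g := CuspForm.discriminantEquiv (toCuspForm f' hf0) with hg
  have hf'z : ∀ z, f' z = discriminant z * g z := fun z ↦ by
    rw [hg, discriminant_mul_discriminantEquiv_apply]; rfl
  rcases lt_or_ge (m + m) 12 with hlt | hge
  · have : g = 0 := rank_zero_iff_forall_zero.mp
      (levelOne_neg_weight_rank_zero (by push_cast; omega)) g
    have : f' = 0 := by ext z; simp [hf'z, this]
    rw [this]
    exact zero_mem _
  obtain ⟨d, hd, hdz⟩ := exists_delta_int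
  obtain ⟨L, hL⟩ : ∃ L : ModularForm 𝒮ℒ ((m + m - 12 : ℕ) : ℤ) →ₗ[ℂ]
      ModularForm 𝒮ℒ ((m + m : ℕ) : ℤ), ∀ φ z, L φ z = d z * φ z := by
    refine ⟨
      { toFun := fun φ ↦ ModularForm.mcast (by push_cast [hge]; ring) (d.mul φ)
        map_add' := fun φ ψ ↦ by
          ext z
          simp only [ModularForm.coe_mcast, ModularForm.coe_mul, _root_.add_apply,
            Pi.mul_apply]
          ring
        map_smul' := fun r φ ↦ by
          ext z
          simp only [ModularForm.coe_mcast, ModularForm.coe_mul, _root_.smul_apply,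
            Pi.mul_apply, smul_eq_mul, RingHom.id_apply]
          ring }, fun φ z ↦ rfl⟩
  set g' : ModularForm 𝒮ℒ ((m + m - 12 : ℕ) : ℤ) := ModularForm.mcast (by push_cast [hge]; ring) g
  have hfg : f' = (1 / 1728 : ℂ) • L g' := by
    ext z
    rw [_root_.smul_apply, hL, hdz, hf'z, smul_eq_mul]
    change discriminant z * g z = 1 / 1728 * (1728 * discriminant z * g z)
    ring
  rw [hfg]
  refine Submodule.smul_mem _ _ ?_
  have : g' ∈ Submodule.span ℂ (intForms _) := by rw [ih _ (by omega)]; trivial
  refine (Submodule.map_span_le L _ _).mpr (fun φ hφ ↦ ?_) (Submodule.mem_map_of_mem this)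
  refine Submodule.subset_span ?_
  rw [mem_intForms]
  rw [show (⇑(L φ) : ℍ → ℂ) = ⇑d * ⇑φ from funext (hL φ),
    ModularForm.qExpansion_mul_coe one_pos one_mem_periods_SL d φ]
  exact mul_mem_range hd hφ

/-- Level one `q`-expansions lie in the algebra of integral series. -/
lemma qExpansion_levelOne_mem_intAlg {w : ℤ} (f : ModularForm 𝒮ℒ w) :
    qExpansion 1 f ∈ intAlg := by
  have hf : f ∈ Submodule.span ℂ (intForms w) := by rw [span_intForms]; trivial
  induction hf using Submodule.span_induction with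
  | mem x hx =>
    obtain ⟨p, hp⟩ := hx
    rw [← hp]; exact intMap_mem_intAlg p
  | zero => simp [qExpansion_zero]
  | add x y _ _ hx hy =>
    rw [FunLike.coe_add, ModularForm.qExpansion_add one_pos one_mem_periods_SL]
    exact add_mem hx hy
  | smul c x _ hx =>
    rw [FunLike.coe_smul, ModularForm.qExpansion_smul one_pos one_mem_periods_SL]
    exact Subalgebra.smul_mem _ hx c

/-- Conjugates of level one forms are level one forms. -/
lemma exists_conj_levelOne (σ : ℂ ≃+* ℂ) {w : ℤ} (f : ModularForm 𝒮ℒ w) :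
    ∃ g : ModularForm 𝒮ℒ w, qExpansion 1 g = conjSeries σ (qExpansion 1 f) := by
  have hf : f ∈ Submodule.span ℂ (intForms w) := by rw [span_intForms]; trivial
  induction hf using Submodule.span_induction with
  | mem x hx =>
    obtain ⟨p, hp⟩ := hx
    exact ⟨x, by rw [← hp, conjSeries_intMap]⟩
  | zero => exact ⟨0, by simp [qExpansion_zero]⟩
  | add x y _ _ hx hy =>
    obtain ⟨x', hx'⟩ := hx; obtain ⟨y', hy'⟩ := hy
    refine ⟨x' + y', ?_⟩
    rw [FunLike.coe_add, ModularForm.qExpansion_add one_pos one_mem_periods_SL, hx', hy',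
      FunLike.coe_add, ModularForm.qExpansion_add one_pos one_mem_periods_SL, map_add]
  | smul c x _ hx =>
    obtain ⟨x', hx'⟩ := hx
    refine ⟨σ c • x', ?_⟩
    rw [FunLike.coe_smul, ModularForm.qExpansion_smul one_pos one_mem_periods_SL, hx',
      FunLike.coe_smul, ModularForm.qExpansion_smul one_pos one_mem_periods_SL]
    ext n
    simp [conjSeries]

end Fermat.Agent.CuspIntStr
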